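import Fermat.Agent.S52.Core.Defs
import Fermat.Agent.S52.Klein.Short
import Fermat.Agent.EFrob.DetCyc

/-!
# S52, block CORE, row C-MAT (second seat, helper42): `IfaceCSpan → IfaceCMat`

The matrix of `σ ∈ G_ℚ` on the basis `(P10, P01)` of the `5`-torsion of the short model has
determinant the cyclotomic character: `(P10, P01)` is a basis of `E[5]` over `ZMod 5`
(`D.indep`, `IfaceCSpan`), the matrix of `σ` in this basis is `(p r; q s)`, and
`EFrob.galoisDet_eq_of_zeta` computes the determinant.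
-/

set_option autoImplicit false

namespace Fermat.Agent.S52

open WeierstrassCurve WeierstrassCurve.Affine

local notation "Qbar" => AlgebraicClosure ℚ

/-- A root of `X⁴ + X³ + X² + X + 1` is a primitive fifth root of unity. -/
theorem h42m_primitive {ζ : Qbar} (h : h86_Z5 ζ) : IsPrimitiveRoot ζ 5 := by
  have h5 : ζ ^ 5 = 1 := by
    unfold h86_Z5 at h
    linear_combination (ζ - 1) * h
  have h1 : ζ ≠ 1 := by
    rintro rfl
    unfold h86_Z5 at h
    norm_num at h
  have : Fact (Nat.Prime 5) := ⟨by norm_num⟩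
  have hord := IsPrimitiveRoot.orderOf ζ
  rwa [orderOf_eq_prime h5 h1] at hord

section

variable {A B : ℤ}

/-- The `5`-torsion module of the short model. -/
abbrev h42m_M (A B : ℤ) : Type :=
  Submodule.torsionBy ℤ (((h86_shortZ A B).map (Int.castRingHom ℚ))⁄Qbar).Point (5 : ℕ)

theorem h42m_mem {x : h86_Pt A B} (hx : (5 : ℤ) • x = 0) :
    x ∈ Submodule.torsionBy ℤ (((h86_shortZ A B).map (Int.castRingHom ℚ))⁄Qbar).Point (5 : ℕ) := by
  rw [Submodule.mem_torsionBy_iff]
  exact_mod_cast hx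

theorem h42m_mem' (x : h42m_M A B) : (5 : ℤ) • (x : h86_Pt A B) = 0 := by
  have h := x.2
  rw [Submodule.mem_torsionBy_iff] at h
  exact_mod_cast h

/-- The scalar action of `ZMod 5` on the torsion is the integer action. -/
theorem h42m_coe_smul (c : ℤ) (x : h42m_M A B) :
    (((c : ZMod 5) • x : h42m_M A B) : h86_Pt A B) = c • (x : h86_Pt A B) := by
  rw [Int.cast_smul_eq_zsmul]
  rfl

end

/-- **(C-MAT)** `IfaceCSpan → IfaceCMat`. -/
theorem h42m_cMat (hspan : IfaceCSpan) : IfaceCMat := by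
  intro D ζ hζ A B u v hb σ k hk
  have t10 : (5 : ℤ) • D.P10 ζ A B u v = 0 := D.tors10 ζ A B u v hζ hb
  have t01 : (5 : ℤ) • D.P01 A B u v = 0 := D.tors01 A B u v hb
  -- the basis vectors
  let x10 : h42m_M A B := ⟨D.P10 ζ A B u v, h42m_mem t10⟩
  let x01 : h42m_M A B := ⟨D.P01 A B u v, h42m_mem t01⟩
  have hcomb : ∀ (c d : ℤ), (((c : ZMod 5) • x10 + (d : ZMod 5) • x01 : h42m_M A B) : h86_Pt A B)
      = c • D.P10 ζ A B u v + d • D.P01 A B u v := by
    intro c d
    rw [Submodule.coe_add, h42m_coe_smul, h42m_coe_smul]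
  have hzero : ∀ c : ZMod 5, (5 : ℤ) ∣ (c.val : ℤ) → c = 0 := by
    intro c hc
    have h0 : (((c.val : ℤ) : ℤ) : ZMod 5) = 0 := (ZMod.intCast_zmod_eq_zero_iff_dvd _ 5).mpr hc
    push_cast at h0
    rwa [ZMod.natCast_zmod_val] at h0
  have hli : LinearIndependent (ZMod 5) ![x10, x01] := by
    rw [LinearIndependent.pair_iff]
    intro s t hst
    have e : ((s.val : ℤ) : ZMod 5) • x10 + ((t.val : ℤ) : ZMod 5) • x01 = 0 := by
      push_cast
      rw [ZMod.natCast_zmod_val, ZMod.natCast_zmod_val]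
      exact hst
    have e' := congrArg (Subtype.val) e
    rw [hcomb] at e'
    obtain ⟨d1, d2⟩ := D.indep ζ A B u v hζ hb _ _ e'
    exact ⟨hzero s d1, hzero t d2⟩
  have hsp : ⊤ ≤ Submodule.span (ZMod 5) (Set.range ![x10, x01]) := by
    intro x _
    obtain ⟨i, j, hij⟩ := hspan D ζ hζ A B u v hb (x : h86_Pt A B) (h42m_mem' x)
    have hx : x = (i : ZMod 5) • x10 + (j : ZMod 5) • x01 := by
      apply Subtype.ext
      rw [hcomb]
      exact hij
    rw [hx]
    refine Submodule.add_mem _ (Submodule.smul_mem _ _ (Submodule.subset_span ⟨0, rfl⟩))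
      (Submodule.smul_mem _ _ (Submodule.subset_span ⟨1, rfl⟩))
  let b : Module.Basis (Fin 2) (ZMod 5) (h42m_M A B) := Module.Basis.mk hli hsp
  have hb0 : b 0 = x10 := by simp [b]
  have hb1 : b 1 = x01 := by simp [b]
  -- the images of the basis vectors
  have s10 : (5 : ℤ) • (σ • D.P10 ζ A B u v) = 0 := by
    rw [← Point.algEquiv_smul_zsmul, t10, smul_zero]
  have s01 : (5 : ℤ) • (σ • D.P01 A B u v) = 0 := by
    rw [← Point.algEquiv_smul_zsmul, t01, smul_zero]
  obtain ⟨p, q, hpq⟩ := hspan D ζ hζ A B u v hb _ s10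
  obtain ⟨r, s, hrs⟩ := hspan D ζ hζ A B u v hb _ s01
  refine ⟨p, q, r, s, hpq, hrs, ?_⟩
  let φ := Point.galoisRepModuleEnd (K := Qbar) ℚ
    ((h86_shortZ A B).map (Int.castRingHom ℚ)).toAffine 5 σ
  have hφ0 : φ (b 0) = (p : ZMod 5) • b 0 + (q : ZMod 5) • b 1 := by
    rw [hb0, hb1]
    apply Subtype.ext
    rw [hcomb]
    exact hpq
  have hφ1 : φ (b 1) = (r : ZMod 5) • b 0 + (s : ZMod 5) • b 1 := by
    rw [hb0, hb1]
    apply Subtype.ext
    rw [hcomb]
    exact hrs
  have hmat : LinearMap.toMatrix b b φ = !![(p : ZMod 5), (r : ZMod 5); (q : ZMod 5), (s : ZMod 5)] := by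
    ext i j
    rw [LinearMap.toMatrix_apply]
    fin_cases j
    · simp only [Fin.zero_eta]
      rw [hφ0]
      fin_cases i <;> simp
    · simp only [Fin.mk_one]
      rw [hφ1]
      fin_cases i <;> simp
  have hdet : LinearMap.det φ = (k : ZMod 5) :=
    Fermat.Agent.EFrob.galoisDet_eq_of_zeta (h86_shortZ A B) (h86_shortZ_Δ_ne_zero hb.1)
      (by norm_num) (h42m_primitive hζ) σ k hk
  rw [← LinearMap.det_toMatrix b, hmat, Matrix.det_fin_two_of] at hdet
  have h0 : ((p * s - q * r - k : ℤ) : ZMod 5) = 0 := by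
    push_cast
    linear_combination hdet
  exact (ZMod.intCast_zmod_eq_zero_iff_dvd _ 5).mp h0

end Fermat.Agent.S52
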