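import Fermat.Agent.S52.Core.Defs

/-!
# S52, block CORE, row C-SEP-OF: the universal 5-torsion datum gives `IfaceCoreSepZ`

Author: helper49.  A `σ ∈ G_ℚ` fixing the 5-torsion of `h86_shortZ A B` and the fifth roots of
unity fixes `P10 ζ w₀` and `P01 w₀`; by the Galois laws these are `P10 ζ (σ w₀)`, `P01 (σ w₀)`,
and the separation law gives `σ w₀ = lam w₀` with `lam ^ 10 = 1`.
-/

set_option autoImplicit false

namespace Fermat.Agent.S52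

open WeierstrassCurve WeierstrassCurve.Affine

/-- A primitive fifth root of unity exists in `ℚ̄`. -/
theorem h49_exists_Z5 : ∃ ζ : AlgebraicClosure ℚ, h86_Z5 ζ := by
  have hdeg : (Polynomial.X ^ 4 + Polynomial.X ^ 3 + Polynomial.X ^ 2 + Polynomial.X + 1 :
      Polynomial (AlgebraicClosure ℚ)).degree ≠ 0 := by
    have : (Polynomial.X ^ 4 + Polynomial.X ^ 3 + Polynomial.X ^ 2 + Polynomial.X + 1 :
        Polynomial (AlgebraicClosure ℚ)).degree = 4 := by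
      compute_degree!
    rw [this]; norm_num
  obtain ⟨ζ, hζ⟩ := IsAlgClosed.exists_root _ hdeg
  refine ⟨ζ, ?_⟩
  simpa [h86_Z5, Polynomial.IsRoot] using hζ

theorem h49_Z5_pow_five {ζ : AlgebraicClosure ℚ} (hζ : h86_Z5 ζ) : ζ ^ 5 = 1 := by
  have h : (ζ - 1) * (ζ ^ 4 + ζ ^ 3 + ζ ^ 2 + ζ + 1) = 0 := by
    rw [hζ, mul_zero]
  have h2 : ζ ^ 5 - 1 = (ζ - 1) * (ζ ^ 4 + ζ ^ 3 + ζ ^ 2 + ζ + 1) := by ring
  rw [h] at h2
  exact sub_eq_zero.1 h2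

/-- A point killed by `5`, fixed by a `σ` which fixes the `5`-torsion pointwise. -/
theorem h49_smul_eq_of_tors {A B : ℤ} (σ : AlgebraicClosure ℚ ≃ₐ[ℚ] AlgebraicClosure ℚ)
    (hσ : ∀ x : h86_Tors (h86_shortZ A B) 5, σ • x = x)
    (P : h86_Pt A B) (hP : (5 : ℤ) • P = 0) : σ • P = P := by
  have hmem : P ∈ Submodule.torsionBy ℤ
      (((h86_shortZ A B).map (Int.castRingHom ℚ))⁄(AlgebraicClosure ℚ)).Point ((5 : ℕ) : ℤ) := by
    rw [Submodule.mem_torsionBy_iff]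
    exact_mod_cast hP
  have h := hσ ⟨P, hmem⟩
  exact congrArg Subtype.val h

/-- **(C-SEP-OF)** -/
theorem h49_cSepOf : IfaceCSepOf := by
  rintro ⟨D⟩ A B hAB u₀ v₀ hH hT σ hσ hσ5
  obtain ⟨ζ, hζ⟩ := h49_exists_Z5
  have hσζ : σ ζ = ζ := hσ5 ζ (h49_Z5_pow_five hζ)
  have hbase : h86_Base A B u₀ v₀ := ⟨hAB, hH, hT⟩
  have hbase' : h86_Base A B (σ u₀) (σ v₀) := by
    refine ⟨hAB, ?_, ?_⟩
    · rw [← h42rr_H_map σ u₀ v₀, hH]; simp
    · rw [← h42rr_T_map σ u₀ v₀, hT]; simp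
  have h10 : D.P10 ζ A B u₀ v₀ = D.P10 ζ A B (σ u₀) (σ v₀) := by
    have h1 := h49_smul_eq_of_tors σ hσ (D.P10 ζ A B u₀ v₀) (D.tors10 ζ A B u₀ v₀ hζ hbase)
    have h2 := D.gal10 σ ζ A B u₀ v₀ hζ hbase
    rw [hσζ] at h2
    rw [← h2, h1]
  have h01 : D.P01 A B u₀ v₀ = D.P01 A B (σ u₀) (σ v₀) := by
    have h1 := h49_smul_eq_of_tors σ hσ (D.P01 A B u₀ v₀) (D.tors01 A B u₀ v₀ hbase)
    have h2 := D.gal01 σ A B u₀ v₀ hbase
    rw [← h2, h1]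
  exact D.sep ζ A B u₀ v₀ (σ u₀) (σ v₀) hζ hbase hbase' h10 h01

end Fermat.Agent.S52
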