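import Fermat.Agent.S52.Core.Defs
import Fermat.Agent.S52.Core.H42Mat
import Fermat.Agent.S52.Core.SepOf
import Fermat.Agent.S52.Klein.Points

/-!
# S52, block CORE, row C-ISO-OF (second seat, helper42): `IfaceCIsoOf`

`IfaceKlData → IfaceCDesc → IfaceCSpan → IfaceCoreIsoZ`: two points `w₀`, `w_s` of the covariant
line through a base point carry isomorphic mod-5 representations.  The isomorphism maps the basis
`(P10(w₀), P01(w₀))` of `E[5]` to the basis `(P10(w_s), P01(w_s))` of `E'[5]`; it is equivariant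
because `σ w = lam • φ(w)` holds with the same Klein symmetry `φ` and the same `lam` at `w₀` and
at `w_s`, so that `σ` has the same matrix in both bases.
-/

set_option autoImplicit false

namespace Fermat.Agent.S52

open WeierstrassCurve WeierstrassCurve.Affine

local notation "Qbar" => AlgebraicClosure ℚ

/-! ## The basis `(P10, P01)` of the `5`-torsion -/

section Basis

variable (D : h86_KlData) {ζ : Qbar} (hζ : h86_Z5 ζ) {A B : ℤ} {u v : Qbar}
  (hb : h86_Base A B u v)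

/-- `P10` as an element of the torsion module. -/
noncomputable def h42i_x10 : h42m_M A B :=
  ⟨D.P10 ζ A B u v, h42m_mem (D.tors10 ζ A B u v hζ hb)⟩

/-- `P01` as an element of the torsion module. -/
noncomputable def h42i_x01 : h42m_M A B :=
  ⟨D.P01 A B u v, h42m_mem (D.tors01 A B u v hb)⟩

theorem h42i_comb (c d : ℤ) :
    (((c : ZMod 5) • h42i_x10 D hζ hb + (d : ZMod 5) • h42i_x01 D hb : h42m_M A B) :
      h86_Pt A B) = c • D.P10 ζ A B u v + d • D.P01 A B u v := by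
  rw [Submodule.coe_add, h42m_coe_smul, h42m_coe_smul]
  rfl

theorem h42i_li : LinearIndependent (ZMod 5) ![h42i_x10 D hζ hb, h42i_x01 D hb] := by
  have hzero : ∀ c : ZMod 5, (5 : ℤ) ∣ (c.val : ℤ) → c = 0 := by
    intro c hc
    have h0 : (((c.val : ℤ) : ℤ) : ZMod 5) = 0 := (ZMod.intCast_zmod_eq_zero_iff_dvd _ 5).mpr hc
    push_cast at h0
    rwa [ZMod.natCast_zmod_val] at h0
  rw [LinearIndependent.pair_iff]
  intro s t hst
  have e : ((s.val : ℤ) : ZMod 5) • h42i_x10 D hζ hb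
      + ((t.val : ℤ) : ZMod 5) • h42i_x01 D hb = 0 := by
    push_cast
    rw [ZMod.natCast_zmod_val, ZMod.natCast_zmod_val]
    exact hst
  have e' := congrArg (Subtype.val) e
  rw [h42i_comb] at e'
  obtain ⟨d1, d2⟩ := D.indep ζ A B u v hζ hb _ _ e'
  exact ⟨hzero s d1, hzero t d2⟩

theorem h42i_span (hspan : IfaceCSpan) :
    ⊤ ≤ Submodule.span (ZMod 5) (Set.range ![h42i_x10 D hζ hb, h42i_x01 D hb]) := by
  intro x _
  obtain ⟨i, j, hij⟩ := hspan D ζ hζ A B u v hb (x : h86_Pt A B) (h42m_mem' x)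
  have hx : x = (i : ZMod 5) • h42i_x10 D hζ hb + (j : ZMod 5) • h42i_x01 D hb := by
    apply Subtype.ext
    rw [h42i_comb]
    exact hij
  rw [hx]
  exact Submodule.add_mem _ (Submodule.smul_mem _ _ (Submodule.subset_span ⟨0, rfl⟩))
    (Submodule.smul_mem _ _ (Submodule.subset_span ⟨1, rfl⟩))

/-- The basis `(P10, P01)` of `E[5]`. -/
noncomputable def h42i_basis (hspan : IfaceCSpan) : Module.Basis (Fin 2) (ZMod 5) (h42m_M A B) :=
  Module.Basis.mk (h42i_li D hζ hb) (h42i_span D hζ hb hspan)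

theorem h42i_basis_zero (hspan : IfaceCSpan) :
    h42i_basis D hζ hb hspan 0 = h42i_x10 D hζ hb := by
  simp [h42i_basis]

theorem h42i_basis_one (hspan : IfaceCSpan) :
    h42i_basis D hζ hb hspan 1 = h42i_x01 D hb := by
  simp [h42i_basis]

end Basis

/-! ## The action of `σ` at a base point -/

section Action

variable (D : h86_KlData) {ζ : Qbar} (hζ : h86_Z5 ζ)

include hζ in
/-- The Galois twist: `P10 (σ ζ) = m • P10 ζ` with `m` depending only on `σ ζ`. -/
theorem h42i_m (σ : Qbar ≃ₐ[ℚ] Qbar) :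
    ∃ m : ℤ, ∀ (A B : ℤ) (u v : Qbar), h86_Base A B u v →
      D.P10 (σ ζ) A B u v = m • D.P10 ζ A B u v := by
  have h5 : ζ ^ 5 = 1 := h49_Z5_pow_five hζ
  have hprim := h42m_primitive hζ
  have hσ5 : (σ ζ) ^ 5 = 1 := by rw [← map_pow, h5, map_one]
  obtain ⟨i, hi, hiζ⟩ := hprim.eq_pow_of_pow_eq_one hσ5
  have hsq : ∀ z : Qbar, h86_Z5 z → h86_Z5 (z ^ 2) := by
    intro z hz
    unfold h86_Z5 at hz ⊢
    linear_combination (z ^ 4 - z ^ 3 + z ^ 2 - z + 1) * hz
  have hζ2 : h86_Z5 (ζ ^ 2) := hsq ζ hζ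
  have hζ4 : h86_Z5 ((ζ ^ 2) ^ 2) := hsq _ hζ2
  interval_cases i
  · -- `σ ζ = 1` is impossible
    exfalso
    have h1 : σ ζ = 1 := by rw [← hiζ, pow_zero]
    have h2 := h86_Z5_map hζ σ
    unfold h86_Z5 at h2
    rw [h1] at h2
    norm_num at h2
  · refine ⟨1, fun A B u v _ => ?_⟩
    rw [← hiζ, pow_one, one_smul]
  · refine ⟨2, fun A B u v hb => ?_⟩
    rw [← hiζ]
    exact D.lawG ζ A B u v hζ hb
  · refine ⟨8, fun A B u v hb => ?_⟩
    rw [← hiζ]
    have e : ζ ^ 3 = ((ζ ^ 2) ^ 2) ^ 2 := by linear_combination (-(ζ ^ 3)) * h5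
    rw [e, D.lawG ((ζ ^ 2) ^ 2) A B u v hζ4 hb, D.lawG (ζ ^ 2) A B u v hζ2 hb,
      D.lawG ζ A B u v hζ hb]
    module
  · refine ⟨4, fun A B u v hb => ?_⟩
    rw [← hiζ]
    have e4 : ζ ^ 4 = (ζ ^ 2) ^ 2 := by ring
    rw [e4, D.lawG (ζ ^ 2) A B u v hζ2 hb, D.lawG ζ A B u v hζ hb]
    module

include hζ in
/-- A scalar `lam` with `lam ^ 10 = 1` acts on the universal points by a sign. -/
theorem h42i_eps {lam : Qbar} (hlam : lam ^ 10 = 1) :
    ∃ ε : ℤ, ∀ (A B : ℤ) (u v : Qbar), h86_Base A B u v →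
      D.P10 ζ A B (lam * u) (lam * v) = ε • D.P10 ζ A B u v ∧
      D.P01 A B (lam * u) (lam * v) = ε • D.P01 A B u v := by
  have h : (lam ^ 5 - 1) * (lam ^ 5 + 1) = 0 := by linear_combination hlam
  rcases mul_eq_zero.mp h with h1 | h1
  · have h5 : lam ^ 5 = 1 := sub_eq_zero.mp h1
    refine ⟨1, fun A B u v hb => ?_⟩
    rw [one_smul, one_smul]
    exact ⟨D.lawScal10 ζ A B u v lam hζ hb h5, D.lawScal01 A B u v lam hb h5⟩
  · have h5 : (-lam) ^ 5 = 1 := by linear_combination -h1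
    refine ⟨-1, fun A B u v hb => ?_⟩
    have hneg : h86_Base A B (-u) (-v) := by
      have := h86_Base_smul hb (lam := -1) (by norm_num)
      simpa using this
    have e1 : lam * u = -lam * -u := by ring
    have e2 : lam * v = -lam * -v := by ring
    rw [e1, e2, D.lawScal10 ζ A B (-u) (-v) (-lam) hζ hneg h5,
      D.lawScal01 A B (-u) (-v) (-lam) hneg h5, D.lawNeg10 ζ A B u v hζ hb,
      D.lawNeg01 A B u v hb]
    constructor <;> module

include hζ in
/-- The action of `σ` on the universal points at a base point, from the descent data. -/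
theorem h42i_action {A B : ℤ} {u v : Qbar} (hb : h86_Base A B u v) (σ : Qbar ≃ₐ[ℚ] Qbar)
    {a b c d lam : Qbar} {p q r s : ℤ} (hsym : h86_SymM D ζ a b c d p q r s)
    (hu : σ u = lam * (a * u + b * v)) (hv : σ v = lam * (c * u + d * v))
    (m ε : ℤ)
    (hm : ∀ (A B : ℤ) (u v : Qbar), h86_Base A B u v →
      D.P10 (σ ζ) A B u v = m • D.P10 ζ A B u v)
    (hε : ∀ (A B : ℤ) (u v : Qbar), h86_Base A B u v →
      D.P10 ζ A B (lam * u) (lam * v) = ε • D.P10 ζ A B u v ∧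
      D.P01 A B (lam * u) (lam * v) = ε • D.P01 A B u v) :
    σ • D.P10 ζ A B u v = (m * ε * p) • D.P10 ζ A B u v + (m * ε * q) • D.P01 A B u v ∧
    σ • D.P01 A B u v = (ε * r) • D.P10 ζ A B u v + (ε * s) • D.P01 A B u v := by
  have hbσ : h86_Base A B (σ u) (σ v) := h86_Base_map hb σ
  have hbφ : h86_Base A B (a * u + b * v) (c * u + d * v) := h86_Base_sym hb hsym.1
  obtain ⟨k1, k2⟩ := hsym.2 A B u v hb
  obtain ⟨l1, l2⟩ := hε A B _ _ hbφ
  constructor
  · rw [D.gal10 σ ζ A B u v hζ hb, hm A B _ _ hbσ, hu, hv, l1, k1]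
    module
  · rw [D.gal01 σ A B u v hb, hu, hv, l2, k2]
    module

end Action

/-- The relation `σ w = lam • φ(w)` propagates along the covariant line. -/
theorem h42i_line {a b c d lam : Qbar} (hs : IsKleinSym a b c d) (hlam : lam ^ 10 = 1)
    (σ : Qbar ≃ₐ[ℚ] Qbar) {u v : Qbar} (hu : σ u = lam * (a * u + b * v))
    (hv : σ v = lam * (c * u + d * v)) (s : ℚ) :
    σ (u + s * h42rr_fv u v)
      = lam * (a * (u + s * h42rr_fv u v) + b * (v + s * -h42rr_fu u v)) ∧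
    σ (v + s * -h42rr_fu u v)
      = lam * (c * (u + s * h42rr_fv u v) + d * (v + s * -h42rr_fu u v)) := by
  obtain ⟨-, -, -, hfv, hfu⟩ := hs u v
  have h11 : lam ^ 11 = lam := by
    have : lam ^ 11 = lam ^ 10 * lam := by ring
    rw [this, hlam, one_mul]
  have e1 : σ (h42rr_fv u v) = lam * (a * h42rr_fv u v + b * -h42rr_fu u v) := by
    rw [h42rr_fv_map, hu, hv, h42rr_fv_smul, h11, hfv]
  have e2 : σ (-h42rr_fu u v) = lam * (c * h42rr_fv u v + d * -h42rr_fu u v) := by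
    rw [map_neg, h42rr_fu_map, hu, hv, h42rr_fu_smul, h11, ← hfu]
    ring
  constructor
  · rw [map_add, map_mul, map_ratCast, hu, e1]
    ring
  · rw [map_add, map_mul, map_ratCast, hv, e2]
    ring

/-- **(C-ISO-OF)** `IfaceKlData → IfaceCDesc → IfaceCSpan → IfaceCoreIsoZ`. -/
theorem h42i_cIsoOf : IfaceCIsoOf := by
  intro hD hdesc hspan A B hAB u₀ v₀ hH hT s A' B' hAB' hH' hT'
  obtain ⟨D⟩ := hD
  obtain ⟨ζ, hζ⟩ := h49_exists_Z5
  have hb : h86_Base A B u₀ v₀ := ⟨hAB, hH, hT⟩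
  have hb' : h86_Base A' B' (u₀ + s * h42rr_fv u₀ v₀) (v₀ + s * -h42rr_fu u₀ v₀) :=
    ⟨hAB', hH', hT'⟩
  let e : h42m_M A B ≃ₗ[ZMod 5] h42m_M A' B' :=
    (h42i_basis D hζ hb hspan).equiv (h42i_basis D hζ hb' hspan) (Equiv.refl _)
  have he0 : e (h42i_x10 D hζ hb) = h42i_x10 D hζ hb' := by
    rw [← h42i_basis_zero D hζ hb hspan, ← h42i_basis_zero D hζ hb' hspan]
    simp [e]
  have he1 : e (h42i_x01 D hb) = h42i_x01 D hb' := by
    rw [← h42i_basis_one D hζ hb hspan, ← h42i_basis_one D hζ hb' hspan]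
    simp [e]
  refine ⟨e.toAddEquiv, fun σ x => ?_⟩
  -- descent data
  obtain ⟨a, b, c, d, lam, p, q, r, t, hsym, hlam, hu, hv⟩ := hdesc D ζ hζ A B u₀ v₀ hb σ
  obtain ⟨hu', hv'⟩ := h42i_line hsym.1 hlam σ hu hv s
  obtain ⟨m, hm⟩ := h42i_m D hζ σ
  obtain ⟨ε, hε⟩ := h42i_eps D hζ hlam
  obtain ⟨k1, k2⟩ := h42i_action D hζ hb σ hsym hu hv m ε hm hε
  obtain ⟨k1', k2'⟩ := h42i_action D hζ hb' σ hsym hu' hv' m ε hm hε
  -- the action of `σ` on the basis vectors, in both modules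
  have a10 : σ • h42i_x10 D hζ hb = ((m * ε * p : ℤ) : ZMod 5) • h42i_x10 D hζ hb
      + ((m * ε * q : ℤ) : ZMod 5) • h42i_x01 D hb := by
    apply Subtype.ext
    rw [h42i_comb]
    exact k1
  have a01 : σ • h42i_x01 D hb = ((ε * r : ℤ) : ZMod 5) • h42i_x10 D hζ hb
      + ((ε * t : ℤ) : ZMod 5) • h42i_x01 D hb := by
    apply Subtype.ext
    rw [h42i_comb]
    exact k2
  have a10' : σ • h42i_x10 D hζ hb' = ((m * ε * p : ℤ) : ZMod 5) • h42i_x10 D hζ hb'
      + ((m * ε * q : ℤ) : ZMod 5) • h42i_x01 D hb' := by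
    apply Subtype.ext
    rw [h42i_comb]
    exact k1'
  have a01' : σ • h42i_x01 D hb' = ((ε * r : ℤ) : ZMod 5) • h42i_x10 D hζ hb'
      + ((ε * t : ℤ) : ZMod 5) • h42i_x01 D hb' := by
    apply Subtype.ext
    rw [h42i_comb]
    exact k2'
  -- two linear maps which agree on the basis
  let φ := Point.galoisRepModuleEnd (K := Qbar) ℚ
    ((h86_shortZ A B).map (Int.castRingHom ℚ)).toAffine 5 σ
  let φ' := Point.galoisRepModuleEnd (K := Qbar) ℚ
    ((h86_shortZ A' B').map (Int.castRingHom ℚ)).toAffine 5 σ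
  have key : e.toLinearMap ∘ₗ φ = φ' ∘ₗ e.toLinearMap := by
    refine (h42i_basis D hζ hb hspan).ext fun i => ?_
    fin_cases i
    · simp only [Fin.zero_eta]
      rw [h42i_basis_zero]
      show e (σ • h42i_x10 D hζ hb) = σ • e (h42i_x10 D hζ hb)
      rw [he0, a10, a10', map_add, map_smul, map_smul, he0, he1]
    · simp only [Fin.mk_one]
      rw [h42i_basis_one]
      show e (σ • h42i_x01 D hb) = σ • e (h42i_x01 D hb)
      rw [he1, a01, a01', map_add, map_smul, map_smul, he0, he1]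
  exact LinearMap.congr_fun key x

end Fermat.Agent.S52
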