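import Fermat.Agent.S52.Core.H42Desc
import Fermat.Agent.S52.Core.H42IsoOf
import Fermat.Agent.S52.Core.SepOf

/-!
# S52, block CORE: the three CORE interfaces of `Skeleton3.lean` from the universal datum

`IfaceKlData → IfaceCoreDescZ`, `IfaceKlData → IfaceCoreSepZ`, `IfaceKlData → IfaceCoreIsoZ`
(helper42; uses C-DESC-OF of helper72 and C-SEP-OF of helper49).
-/

set_option autoImplicit false

namespace Fermat.Agent.S52

/-- **(CORE-DESC-Z)** from the universal 5-torsion datum. -/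
theorem h42c_coreDescZ (hD : IfaceKlData) : IfaceCoreDescZ := by
  intro A B hAB u₀ v₀ hH hT σ
  obtain ⟨D⟩ := hD
  obtain ⟨ζ, hζ⟩ := h49_exists_Z5
  obtain ⟨a, b, c, d, lam, p, q, r, s, hsym, hlam, hu, hv⟩ :=
    h42d_ifaceCDesc D ζ hζ A B u₀ v₀ ⟨hAB, hH, hT⟩ σ
  exact ⟨a, b, c, d, lam, hsym.1, hlam, hu, hv⟩

/-- **(CORE-SEP-Z)** from the universal 5-torsion datum. -/
theorem h42c_coreSepZ (hD : IfaceKlData) : IfaceCoreSepZ := h49_cSepOf hD

/-- **(CORE-ISO-Z)** from the universal 5-torsion datum. -/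
theorem h42c_coreIsoZ (hD : IfaceKlData) : IfaceCoreIsoZ :=
  h42i_cIsoOf hD h42d_ifaceCDesc h42sp_cSpan

end Fermat.Agent.S52
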