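import Fermat.Agent.S52.Skeleton3

/-!
# S52, block CORE: the universal 5-torsion datum and the frozen internal interfaces

Architect: helper86.  The block FORMULAS (helper5) delivers an inhabitant of the structure
`h86_KlData` (`IfaceKlData`); the block CORE derives `IfaceCoreDescZ`, `IfaceCoreSepZ`,
`IfaceCoreIsoZ` (`Skeleton3.lean`) from it.  All point-level laws are equalities in the ONE type
`h86_Pt A B` (points over `ℚ̄` of the integral short model `y² = x³ - 27 A x - 54 B`), so no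
casts between curves occur.

Conventions (helper5's data): on the universal curve `y² = x³ + 27 H(w) x + 54 T(w)`,
`P10 ζ` has coordinates in `ℚ(ζ)[u⁵, v⁵]`, `P01` has rational coefficients;
`t = diag(ζ³, ζ²)` acts by `(P10, P01) ↦ (P10, P01 + P10)`, Klein's `S` by
`(P10, P01) ↦ (-P01, P10)`, the Galois twist `ζ ↦ ζ²` by `P10 ↦ 2 P10`, a scalar `λ` with
`λ⁵ = 1` trivially and `-1` by `P ↦ -P`.
-/

set_option autoImplicit false

namespace Fermat.Agent.S52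

open WeierstrassCurve WeierstrassCurve.Affine

/-- The points over `ℚ̄` of the integral short model `y² = x³ - 27 A x - 54 B`. -/
abbrev h86_Pt (A B : ℤ) : Type :=
  (((h86_shortZ A B).map (Int.castRingHom ℚ))⁄(AlgebraicClosure ℚ)).Point

/-- `ζ` is a primitive fifth root of unity. -/
def h86_Z5 (ζ : AlgebraicClosure ℚ) : Prop := ζ ^ 4 + ζ ^ 3 + ζ ^ 2 + ζ + 1 = 0

/-- `(u, v)` is a base point of the (nonsingular) pair `(A, B)`. -/
def h86_Base (A B : ℤ) (u v : AlgebraicClosure ℚ) : Prop :=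
  A ^ 3 ≠ B ^ 2 ∧ h42rr_H u v = -(A : AlgebraicClosure ℚ) ∧
    h42rr_T u v = -(B : AlgebraicClosure ℚ)

/-- **The universal 5-torsion datum** (deliverable of FORMULAS). -/
structure h86_KlData where
  /-- entries of Klein's `S` as functions of `ζ` -/
  Sa : AlgebraicClosure ℚ → AlgebraicClosure ℚ
  Sb : AlgebraicClosure ℚ → AlgebraicClosure ℚ
  Sc : AlgebraicClosure ℚ → AlgebraicClosure ℚ
  Sd : AlgebraicClosure ℚ → AlgebraicClosure ℚ
  /-- the universal point `P10` (depends on `ζ`) -/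
  P10 : AlgebraicClosure ℚ → (A B : ℤ) → AlgebraicClosure ℚ → AlgebraicClosure ℚ → h86_Pt A B
  /-- the universal point `P01` -/
  P01 : (A B : ℤ) → AlgebraicClosure ℚ → AlgebraicClosure ℚ → h86_Pt A B
  symS : ∀ ζ, h86_Z5 ζ → IsKleinSym (Sa ζ) (Sb ζ) (Sc ζ) (Sd ζ)
  tors10 : ∀ ζ A B u v, h86_Z5 ζ → h86_Base A B u v → (5 : ℤ) • P10 ζ A B u v = 0
  tors01 : ∀ A B u v, h86_Base A B u v → (5 : ℤ) • P01 A B u v = 0
  indep : ∀ ζ A B u v, h86_Z5 ζ → h86_Base A B u v → ∀ i j : ℤ,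
    i • P10 ζ A B u v + j • P01 A B u v = 0 → (5 : ℤ) ∣ i ∧ (5 : ℤ) ∣ j
  lawT10 : ∀ ζ A B u v, h86_Z5 ζ → h86_Base A B u v →
    P10 ζ A B (ζ ^ 3 * u) (ζ ^ 2 * v) = P10 ζ A B u v
  lawT01 : ∀ ζ A B u v, h86_Z5 ζ → h86_Base A B u v →
    P01 A B (ζ ^ 3 * u) (ζ ^ 2 * v) = P01 A B u v + P10 ζ A B u v
  lawS10 : ∀ ζ A B u v, h86_Z5 ζ → h86_Base A B u v →
    P10 ζ A B (Sa ζ * u + Sb ζ * v) (Sc ζ * u + Sd ζ * v) = -P01 A B u v
  lawS01 : ∀ ζ A B u v, h86_Z5 ζ → h86_Base A B u v →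
    P01 A B (Sa ζ * u + Sb ζ * v) (Sc ζ * u + Sd ζ * v) = P10 ζ A B u v
  lawG : ∀ ζ A B u v, h86_Z5 ζ → h86_Base A B u v →
    P10 (ζ ^ 2) A B u v = (2 : ℤ) • P10 ζ A B u v
  lawScal10 : ∀ ζ A B u v lam, h86_Z5 ζ → h86_Base A B u v → lam ^ 5 = 1 →
    P10 ζ A B (lam * u) (lam * v) = P10 ζ A B u v
  lawScal01 : ∀ A B u v lam, h86_Base A B u v → lam ^ 5 = 1 →
    P01 A B (lam * u) (lam * v) = P01 A B u v
  lawNeg10 : ∀ ζ A B u v, h86_Z5 ζ → h86_Base A B u v →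
    P10 ζ A B (-u) (-v) = -P10 ζ A B u v
  lawNeg01 : ∀ A B u v, h86_Base A B u v → P01 A B (-u) (-v) = -P01 A B u v
  gal10 : ∀ (σ : AlgebraicClosure ℚ ≃ₐ[ℚ] AlgebraicClosure ℚ) ζ A B u v, h86_Z5 ζ →
    h86_Base A B u v → σ • P10 ζ A B u v = P10 (σ ζ) A B (σ u) (σ v)
  gal01 : ∀ (σ : AlgebraicClosure ℚ ≃ₐ[ℚ] AlgebraicClosure ℚ) A B u v,
    h86_Base A B u v → σ • P01 A B u v = P01 A B (σ u) (σ v)
  sep : ∀ ζ A B u v u' v', h86_Z5 ζ → h86_Base A B u v → h86_Base A B u' v' →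
    P10 ζ A B u v = P10 ζ A B u' v' → P01 A B u v = P01 A B u' v' →
    ∃ lam : AlgebraicClosure ℚ, lam ^ 10 = 1 ∧ u' = lam * u ∧ v' = lam * v

/-- **(FORMULAS)** The universal 5-torsion datum exists. -/
def IfaceKlData : Prop := Nonempty h86_KlData

/-- A *Klein symmetry with torsion matrix*: `(u, v) ↦ (a u + b v, c u + d v)` is a Klein
symmetry and transforms the universal points by the integer matrix `(p q; r s)`. -/
def h86_SymM (D : h86_KlData) (ζ a b c d : AlgebraicClosure ℚ) (p q r s : ℤ) : Prop :=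
  IsKleinSym a b c d ∧ ∀ (A B : ℤ) (u v : AlgebraicClosure ℚ), h86_Base A B u v →
    D.P10 ζ A B (a * u + b * v) (c * u + d * v)
      = p • D.P10 ζ A B u v + q • D.P01 A B u v ∧
    D.P01 A B (a * u + b * v) (c * u + d * v)
      = r • D.P10 ζ A B u v + s • D.P01 A B u v

/-- **(C-GEN)** `SL₂(𝔽₅)` is generated, as a monoid, by `(1 0; 1 1)` and `(0 -1; 1 0)`. -/
def IfaceCGen : Prop :=
  ∀ N : Submonoid (Matrix (Fin 2) (Fin 2) (ZMod 5)),
    !![(1 : ZMod 5), 0; 1, 1] ∈ N → !![(0 : ZMod 5), -1; 1, 0] ∈ N →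
    ∀ M : Matrix (Fin 2) (Fin 2) (ZMod 5), M.det = 1 → M ∈ N

/-- **(C-SYM)** Every integer matrix of determinant `≡ 1 mod 5` is the torsion matrix of a Klein
symmetry.  (Generators `t = diag(ζ³, ζ²)`, `S`; `h86_SymM` is closed under composition with
multiplication of matrices; `IfaceCGen`; entries only matter mod 5 by `tors10`, `tors01`.) -/
def IfaceCSym : Prop :=
  ∀ (D : h86_KlData) (ζ : AlgebraicClosure ℚ), h86_Z5 ζ →
    ∀ p q r s : ℤ, (5 : ℤ) ∣ p * s - q * r - 1 →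
      ∃ a b c d : AlgebraicClosure ℚ, h86_SymM D ζ a b c d p q r s

/-- **(C-MAT)** The matrix of `σ ∈ G_ℚ` on the basis `(P10, P01)` of the 5-torsion, with
determinant the cyclotomic character.  (`tors`, `indep`, `#E[5] = 25` (`Tors/CardTorsion`),
`EFrob.galoisDet_eq_of_zeta` for `W = h86_shortZ A B`.) -/
def IfaceCMat : Prop :=
  ∀ (D : h86_KlData) (ζ : AlgebraicClosure ℚ), h86_Z5 ζ →
    ∀ (A B : ℤ) (u v : AlgebraicClosure ℚ), h86_Base A B u v →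
    ∀ (σ : AlgebraicClosure ℚ ≃ₐ[ℚ] AlgebraicClosure ℚ) (k : ℕ), σ ζ = ζ ^ k →
      ∃ p q r s : ℤ,
        σ • D.P10 ζ A B u v = p • D.P10 ζ A B u v + q • D.P01 A B u v ∧
        σ • D.P01 A B u v = r • D.P10 ζ A B u v + s • D.P01 A B u v ∧
        (5 : ℤ) ∣ p * s - q * r - k

/-- **(C-SPAN)** `(P10, P01)` spans the 5-torsion of the short model. -/
def IfaceCSpan : Prop :=
  ∀ (D : h86_KlData) (ζ : AlgebraicClosure ℚ), h86_Z5 ζ →
    ∀ (A B : ℤ) (u v : AlgebraicClosure ℚ), h86_Base A B u v →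
    ∀ x : h86_Pt A B, (5 : ℤ) • x = 0 →
      ∃ i j : ℤ, x = i • D.P10 ζ A B u v + j • D.P01 A B u v

/-- **(C-DESC)** Strong descent: every `σ ∈ G_ℚ` moves a base point by a Klein symmetry with
torsion matrix and a `10`-th root of unity. -/
def IfaceCDesc : Prop :=
  ∀ (D : h86_KlData) (ζ : AlgebraicClosure ℚ), h86_Z5 ζ →
    ∀ (A B : ℤ) (u v : AlgebraicClosure ℚ), h86_Base A B u v →
    ∀ σ : AlgebraicClosure ℚ ≃ₐ[ℚ] AlgebraicClosure ℚ,
      ∃ (a b c d lam : AlgebraicClosure ℚ) (p q r s : ℤ),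
        h86_SymM D ζ a b c d p q r s ∧ lam ^ 10 = 1 ∧
        σ u = lam * (a * u + b * v) ∧ σ v = lam * (c * u + d * v)

/-- **(C-DESC-OF)** `IfaceCSym → IfaceCMat → IfaceCDesc`. -/
def IfaceCDescOf : Prop := IfaceCSym → IfaceCMat → IfaceCDesc

/-- **(C-ISO-OF)** `IfaceCDesc`, `IfaceCSpan` and the datum give `IfaceCoreIsoZ`. -/
def IfaceCIsoOf : Prop := IfaceKlData → IfaceCDesc → IfaceCSpan → IfaceCoreIsoZ

/-- **(C-SEP-OF)** The datum gives `IfaceCoreSepZ` (laws `gal10`, `gal01`, `sep`). -/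
def IfaceCSepOf : Prop := IfaceKlData → IfaceCoreSepZ

end Fermat.Agent.S52
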