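import Fermat.Agent.S52.Core.Defs

/-!
# S52, block CORE, row C-DESC-OF: `IfaceCSym → IfaceCMat → IfaceCDesc`

Owner: helper72.  Given the universal datum `D`, a primitive fifth root of unity `ζ`, a base
point `w = (u, v)` of `(A, B)` and `σ ∈ G_ℚ`: `σ ζ = ζ ^ k` with `0 < k < 5`; `IfaceCMat` gives
the matrix `(p q; r s)` of `σ` on `(P10, P01)` with `p s - q r ≡ k mod 5`; with `k k' ≡ 1` the
matrix `(k' p, k' q; r, s)` has determinant `1 mod 5`, so `IfaceCSym` gives a Klein symmetry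
`φ` with this torsion matrix.  Then the universal points at `φ w` (for `ζ ^ k`) and at `σ w`
agree, and the separation law `D.sep` yields `σ w = lam • φ w` with `lam ^ 10 = 1`.
-/

set_option autoImplicit false

namespace Fermat.Agent.S52

/-- A fifth root of unity different from `1` is a root of `X⁴ + X³ + X² + X + 1`. -/
theorem h72d_z5_of (ξ : AlgebraicClosure ℚ) (h5 : ξ ^ 5 = 1) (h1 : ξ ≠ 1) : h86_Z5 ξ := by
  unfold h86_Z5
  have h2 : (ξ - 1) * (ξ ^ 4 + ξ ^ 3 + ξ ^ 2 + ξ + 1) = 0 := by linear_combination h5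
  rcases mul_eq_zero.mp h2 with h | h
  · exact absurd (sub_eq_zero.mp h) h1
  · exact h

theorem h72d_pow_five (ζ : AlgebraicClosure ℚ) (hζ : h86_Z5 ζ) : ζ ^ 5 = 1 := by
  unfold h86_Z5 at hζ
  linear_combination (ζ - 1) * hζ

theorem h72d_ne_one (ζ : AlgebraicClosure ℚ) (hζ : h86_Z5 ζ) : ζ ≠ 1 := by
  intro h
  unfold h86_Z5 at hζ
  rw [h] at hζ
  norm_num at hζ

theorem h72d_primitive (ζ : AlgebraicClosure ℚ) (hζ : h86_Z5 ζ) : IsPrimitiveRoot ζ 5 := by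
  have : Fact (Nat.Prime 5) := ⟨by norm_num⟩
  have h := orderOf_eq_prime (p := 5) (h72d_pow_five ζ hζ) (h72d_ne_one ζ hζ)
  have h2 := IsPrimitiveRoot.orderOf ζ
  rwa [h] at h2

/-- Powers `ζ ^ k`, `0 < k < 5`, of a primitive fifth root of unity are primitive. -/
theorem h72d_z5_pow (ζ : AlgebraicClosure ℚ) (hζ : h86_Z5 ζ) (k : ℕ) (hk0 : 0 < k)
    (hk5 : k < 5) : h86_Z5 (ζ ^ k) := by
  refine h72d_z5_of _ ?_ ((h72d_primitive ζ hζ).pow_ne_one_of_pos_of_lt hk0.ne' hk5)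
  rw [← pow_mul, mul_comm, pow_mul, h72d_pow_five ζ hζ, one_pow]

/-- Every `σ ∈ G_ℚ` raises `ζ` to a power `k`, `0 < k < 5`. -/
theorem h72d_exists_k (ζ : AlgebraicClosure ℚ) (hζ : h86_Z5 ζ)
    (σ : AlgebraicClosure ℚ ≃ₐ[ℚ] AlgebraicClosure ℚ) :
    ∃ k : ℕ, 0 < k ∧ k < 5 ∧ σ ζ = ζ ^ k := by
  have hp := h72d_primitive ζ hζ
  have h5 : (σ ζ) ^ 5 = 1 := by rw [← map_pow, h72d_pow_five ζ hζ, map_one]
  obtain ⟨k, hk, hk'⟩ := hp.eq_pow_of_pow_eq_one h5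
  refine ⟨k, ?_, hk, hk'.symm⟩
  rcases Nat.eq_zero_or_pos k with h0 | h0
  · subst h0
    rw [pow_zero] at hk'
    exfalso
    apply h72d_ne_one ζ hζ
    apply σ.injective
    rw [← hk', map_one]
  · exact h0

/-- Integer multiples of a 5-torsion element only depend on the multiplier mod 5. -/
theorem h72d_zsmul_congr {G : Type*} [AddCommGroup G] (x : G) (hx : (5 : ℤ) • x = 0)
    (m n : ℤ) (h : (5 : ℤ) ∣ m - n) : m • x = n • x := by
  obtain ⟨c, hc⟩ := h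
  have hm : m = n + c * 5 := by linarith
  rw [hm, add_zsmul, mul_zsmul, hx, smul_zero, add_zero]

/-- The twist law for all exponents: `P10 (ζ ^ k) = k • P10 ζ`. -/
theorem h72d_twist (D : h86_KlData) (ζ : AlgebraicClosure ℚ) (hζ : h86_Z5 ζ) (A B : ℤ)
    (u v : AlgebraicClosure ℚ) (hb : h86_Base A B u v) (k : ℕ) (hk0 : 0 < k) (hk5 : k < 5) :
    D.P10 (ζ ^ k) A B u v = (k : ℤ) • D.P10 ζ A B u v := by
  have h2 : D.P10 (ζ ^ 2) A B u v = (2 : ℤ) • D.P10 ζ A B u v := D.lawG ζ A B u v hζ hb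
  have hζ2 : h86_Z5 (ζ ^ 2) := h72d_z5_pow ζ hζ 2 (by norm_num) (by norm_num)
  have hζ4 : h86_Z5 (ζ ^ 4) := h72d_z5_pow ζ hζ 4 (by norm_num) (by norm_num)
  have h4 : D.P10 (ζ ^ 4) A B u v = (4 : ℤ) • D.P10 ζ A B u v := by
    have h := D.lawG (ζ ^ 2) A B u v hζ2 hb
    have e : (ζ ^ 2) ^ 2 = ζ ^ 4 := by ring
    rw [e, h2, ← mul_zsmul] at h
    exact h
  have h3 : D.P10 (ζ ^ 3) A B u v = (3 : ℤ) • D.P10 ζ A B u v := by
    have h := D.lawG (ζ ^ 4) A B u v hζ4 hb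
    have e : (ζ ^ 4) ^ 2 = ζ ^ 3 := by
      have h5 := h72d_pow_five ζ hζ
      linear_combination ζ ^ 3 * h5
    rw [e, h4, ← mul_zsmul] at h
    rw [h]
    exact h72d_zsmul_congr _ (D.tors10 ζ A B u v hζ hb) _ _ (by norm_num)
  interval_cases k
  · rw [pow_one, Nat.cast_one, one_zsmul]
  · exact h2
  · exact h3
  · exact h4

/-- **(C-DESC-OF)** Strong descent from `IfaceCSym` and `IfaceCMat`. -/
theorem h72d_descOf : IfaceCDescOf := by
  intro hSym hMat D ζ hζ A B u v hb σ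
  obtain ⟨k, hk0, hk5, hσζ⟩ := h72d_exists_k ζ hζ σ
  obtain ⟨p, q, r, s, h10, h01, hdet⟩ := hMat D ζ hζ A B u v hb σ k hσζ
  obtain ⟨k', hkk'⟩ : ∃ k' : ℤ, (5 : ℤ) ∣ (k : ℤ) * k' - 1 := by
    interval_cases k
    · exact ⟨1, by norm_num⟩
    · exact ⟨3, by norm_num⟩
    · exact ⟨2, by norm_num⟩
    · exact ⟨4, by norm_num⟩
  have hdet' : (5 : ℤ) ∣ (k' * p) * s - (k' * q) * r - 1 := by
    have e : (k' * p) * s - (k' * q) * r - 1 = k' * (p * s - q * r - k) + (k * k' - 1) := by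
      ring
    rw [e]
    exact dvd_add (Dvd.dvd.mul_left hdet k') hkk'
  obtain ⟨a, b, c, d, hK, hlaw⟩ := hSym D ζ hζ (k' * p) (k' * q) r s hdet'
  obtain ⟨hφ10, hφ01⟩ := hlaw A B u v hb
  have hAB := hb.1
  have hH := hb.2.1
  have hT := hb.2.2
  have hbφ : h86_Base A B (a * u + b * v) (c * u + d * v) :=
    ⟨hAB, by rw [(hK u v).2.1, hH], by rw [(hK u v).2.2.1, hT]⟩
  have hbσ : h86_Base A B (σ u) (σ v) :=
    ⟨hAB, by rw [← h42rr_H_map, hH, map_neg, map_intCast],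
      by rw [← h42rr_T_map, hT, map_neg, map_intCast]⟩
  have hζk : h86_Z5 (ζ ^ k) := h72d_z5_pow ζ hζ k hk0 hk5
  have t10 := D.tors10 ζ A B u v hζ hb
  have t01 := D.tors01 A B u v hb
  have e10 : D.P10 (ζ ^ k) A B (a * u + b * v) (c * u + d * v)
      = D.P10 (ζ ^ k) A B (σ u) (σ v) := by
    rw [h72d_twist D ζ hζ A B _ _ hbφ k hk0 hk5, hφ10, ← hσζ,
      ← D.gal10 σ ζ A B u v hζ hb, h10, zsmul_add, ← mul_zsmul, ← mul_zsmul]
    have e1 : ((k : ℤ) * (k' * p)) • D.P10 ζ A B u v = p • D.P10 ζ A B u v := by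
      apply h72d_zsmul_congr _ t10
      have e : (k : ℤ) * (k' * p) - p = p * ((k : ℤ) * k' - 1) := by ring
      rw [e]
      exact Dvd.dvd.mul_left hkk' p
    have e2 : ((k : ℤ) * (k' * q)) • D.P01 A B u v = q • D.P01 A B u v := by
      apply h72d_zsmul_congr _ t01
      have e : (k : ℤ) * (k' * q) - q = q * ((k : ℤ) * k' - 1) := by ring
      rw [e]
      exact Dvd.dvd.mul_left hkk' q
    rw [e1, e2]
  have e01 : D.P01 A B (a * u + b * v) (c * u + d * v) = D.P01 A B (σ u) (σ v) := by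
    rw [hφ01, ← D.gal01 σ A B u v hb, h01]
  obtain ⟨lam, hlam, hu, hv⟩ := D.sep (ζ ^ k) A B _ _ _ _ hζk hbφ hbσ e10 e01
  exact ⟨a, b, c, d, lam, k' * p, k' * q, r, s, ⟨hK, hlaw⟩, hlam, hu, hv⟩

end Fermat.Agent.S52
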