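import Fermat.Agent.S52.Core.Defs

/-!
# S52, block CORE, row C-GEN (second seat, helper42): `IfaceCGen`

`SL₂(𝔽₅)` is generated, as a monoid, by `L = (1 0; 1 1)` and `S = (0 -1; 1 0)`:
`L^n = (1 0; n 1)`, `S³ = S⁻¹`, `U(y) = (1 y; 0 1) = S³ L(-y) S`, and a matrix `(a b; c d)` of
determinant one with `c ≠ 0` is `U((a-1)/c) L(c) U((d-1)/c)`; if `c = 0` apply this to `S M`.
-/

set_option autoImplicit false

namespace Fermat.Agent.S52

theorem h42gen_L_pow (n : ℕ) :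
    (!![(1 : ZMod 5), 0; 1, 1]) ^ n = !![1, 0; (n : ZMod 5), 1] := by
  induction n with
  | zero => simp [Matrix.one_fin_two]
  | succ k ih =>
    rw [pow_succ, ih, Matrix.mul_fin_two]
    simp

theorem h42gen_S_cube :
    (!![(0 : ZMod 5), -1; 1, 0]) ^ 3 = !![0, 1; -1, 0] := by
  rw [pow_succ, pow_succ, pow_one, Matrix.mul_fin_two, Matrix.mul_fin_two]
  simp

theorem h42gen_ext (x1 x2 x3 x4 y1 y2 y3 y4 : ZMod 5) (h1 : x1 = y1) (h2 : x2 = y2)
    (h3 : x3 = y3) (h4 : x4 = y4) : !![x1, x2; x3, x4] = !![y1, y2; y3, y4] := by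
  rw [h1, h2, h3, h4]

section

variable (N : Submonoid (Matrix (Fin 2) (Fin 2) (ZMod 5)))
variable (hL : !![(1 : ZMod 5), 0; 1, 1] ∈ N) (hS : !![(0 : ZMod 5), -1; 1, 0] ∈ N)

include hL in
theorem h42gen_lower (c : ZMod 5) : !![(1 : ZMod 5), 0; c, 1] ∈ N := by
  have h := pow_mem hL c.val
  rw [h42gen_L_pow, ZMod.natCast_zmod_val] at h
  exact h

include hS in
theorem h42gen_Sinv : !![(0 : ZMod 5), 1; -1, 0] ∈ N := by
  have h := pow_mem hS 3
  rw [h42gen_S_cube] at h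
  exact h

include hL hS in
theorem h42gen_upper (y : ZMod 5) : !![(1 : ZMod 5), y; 0, 1] ∈ N := by
  have h := N.mul_mem (N.mul_mem (h42gen_Sinv N hS) (h42gen_lower N hL (-y))) hS
  rw [Matrix.mul_fin_two, Matrix.mul_fin_two] at h
  simpa using h

include hL hS in
/-- The case `c ≠ 0`. -/
theorem h42gen_of_ne (a b c d : ZMod 5) (hc : c ≠ 0) (hdet : a * d - b * c = 1) :
    !![a, b; c, d] ∈ N := by
  have : Fact (Nat.Prime 5) := ⟨by norm_num⟩
  have h := N.mul_mem (N.mul_mem (h42gen_upper N hL hS ((a - 1) / c)) (h42gen_lower N hL c))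
    (h42gen_upper N hL hS ((d - 1) / c))
  rw [Matrix.mul_fin_two, Matrix.mul_fin_two] at h
  have key : !![a, b; c, d] = !![(1 * 1 + (a - 1) / c * c) * 1 + (1 * 0 + (a - 1) / c * 1) * 0,
      (1 * 1 + (a - 1) / c * c) * ((d - 1) / c) + (1 * 0 + (a - 1) / c * 1) * 1;
      (0 * 1 + 1 * c) * 1 + (0 * 0 + 1 * 1) * 0,
      (0 * 1 + 1 * c) * ((d - 1) / c) + (0 * 0 + 1 * 1) * 1] := by
    refine h42gen_ext _ _ _ _ _ _ _ _ ?_ ?_ ?_ ?_
    · field_simp
      ring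
    · field_simp
      linear_combination -hdet
    · ring
    · field_simp
      ring
  rw [key]
  exact h

end

/-- **(C-GEN)** `SL₂(𝔽₅)` is generated, as a monoid, by `(1 0; 1 1)` and `(0 -1; 1 0)`. -/
theorem h42gen_cGen : IfaceCGen := by
  intro N hL hS M hdet
  rw [Matrix.det_fin_two] at hdet
  by_cases hc : M 1 0 = 0
  · -- `c = 0`: then `a ≠ 0` and `S M` has lower left entry `a`
    have ha : M 0 0 ≠ 0 := by
      intro ha
      rw [ha, hc] at hdet
      simp only [zero_mul, mul_zero, sub_self] at hdet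
      exact absurd hdet (by decide)
    have h1 : !![0 * M 0 0 + -1 * M 1 0, 0 * M 0 1 + -1 * M 1 1;
        1 * M 0 0 + 0 * M 1 0, 1 * M 0 1 + 0 * M 1 1] ∈ N := by
      have e : (1 : ZMod 5) * M 0 0 + 0 * M 1 0 ≠ 0 := by
        simpa using ha
      refine h42gen_of_ne N hL hS _ _ _ _ e ?_
      linear_combination hdet
    have h2 := N.mul_mem (h42gen_Sinv N hS) h1
    rw [Matrix.mul_fin_two] at h2
    have e : M = !![0 * (0 * M 0 0 + -1 * M 1 0) + 1 * (1 * M 0 0 + 0 * M 1 0),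
        0 * (0 * M 0 1 + -1 * M 1 1) + 1 * (1 * M 0 1 + 0 * M 1 1);
        -1 * (0 * M 0 0 + -1 * M 1 0) + 0 * (1 * M 0 0 + 0 * M 1 0),
        -1 * (0 * M 0 1 + -1 * M 1 1) + 0 * (1 * M 0 1 + 0 * M 1 1)] := by
      ext i j
      fin_cases i <;> fin_cases j <;> simp
    rw [e]
    exact h2
  · have h := h42gen_of_ne N hL hS (M 0 0) (M 0 1) (M 1 0) (M 1 1) hc hdet
    rw [← Matrix.eta_fin_two M] at h
    exact h

end Fermat.Agent.S52
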