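import Fermat.Agent.S52.Core.Sym
import Fermat.Agent.S52.Core.H42Gen

/-!
# S52, block CORE: `IfaceCSym`, unconditional (helper42)
-/

set_option autoImplicit false

namespace Fermat.Agent.S52

/-- **(C-SYM)**, unconditional: every integer matrix of determinant `≡ 1 mod 5` is the torsion
matrix of a Klein symmetry. -/
theorem h42s_ifaceCSym : IfaceCSym := ifaceCSym_of_cGen h42gen_cGen

end Fermat.Agent.S52
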