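import Fermat.Agent.S52.Core.Defs
import Fermat.Agent.S52.Klein.Short
import Fermat.Agent.Tors.CardTorsion

/-!
# S52, block CORE, row C-SPAN (second seat, helper42): `IfaceCSpan`

`(P10, P01)` spans the `5`-torsion of the short model: the map
`(ZMod 5)² → E[5]`, `(i, j) ↦ i • P10 + j • P01` is injective by `D.indep`, and both sides
have `25` elements (`Fermat.Agent.Tors.card_torsion`).
-/

set_option autoImplicit false

namespace Fermat.Agent.S52

open WeierstrassCurve WeierstrassCurve.Affine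

/-- **(C-SPAN)** `(P10, P01)` spans the 5-torsion of the short model. -/
theorem h42sp_cSpan : IfaceCSpan := by
  intro D ζ hζ A B u v hb x hx
  have hΔ : (h86_E A B).Δ ≠ 0 := h86_E_Δ_ne_zero hb.1
  have hcard : Nat.card {P : (h86_E A B).toAffine.Point // 5 • P = 0} = 5 ^ 2 :=
    Fermat.Agent.Tors.card_torsion (h86_E A B) hΔ 5 (by norm_num)
  have t10 := D.tors10 ζ A B u v hζ hb
  have t01 := D.tors01 A B u v hb
  have hmem : ∀ i j : ℤ, (5 : ℕ) • (i • D.P10 ζ A B u v + j • D.P01 A B u v) = 0 := by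
    intro i j
    have e : (5 : ℕ) • (i • D.P10 ζ A B u v + j • D.P01 A B u v)
        = i • ((5 : ℤ) • D.P10 ζ A B u v) + j • ((5 : ℤ) • D.P01 A B u v) := by
      module
    rw [e, t10, t01]
    module
  let f : ZMod 5 × ZMod 5 → {P : (h86_E A B).toAffine.Point // 5 • P = 0} := fun ij =>
    ⟨(ij.1.val : ℤ) • D.P10 ζ A B u v + (ij.2.val : ℤ) • D.P01 A B u v, hmem _ _⟩
  have hinj : Function.Injective f := by
    intro ij ij' h
    have h1 : (ij.1.val : ℤ) • D.P10 ζ A B u v + (ij.2.val : ℤ) • D.P01 A B u v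
        = (ij'.1.val : ℤ) • D.P10 ζ A B u v + (ij'.2.val : ℤ) • D.P01 A B u v :=
      congrArg Subtype.val h
    have h2 : ((ij.1.val : ℤ) - ij'.1.val) • D.P10 ζ A B u v
        + ((ij.2.val : ℤ) - ij'.2.val) • D.P01 A B u v = 0 := by
      have e : ((ij.1.val : ℤ) - ij'.1.val) • D.P10 ζ A B u v
          + ((ij.2.val : ℤ) - ij'.2.val) • D.P01 A B u v
          = ((ij.1.val : ℤ) • D.P10 ζ A B u v + (ij.2.val : ℤ) • D.P01 A B u v)
            - ((ij'.1.val : ℤ) • D.P10 ζ A B u v + (ij'.2.val : ℤ) • D.P01 A B u v) := by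
        module
      rw [e, h1, sub_self]
    obtain ⟨d1, d2⟩ := D.indep ζ A B u v hζ hb _ _ h2
    have key : ∀ a b : ZMod 5, (5 : ℤ) ∣ (a.val : ℤ) - b.val → a = b := by
      intro a b hab
      have h0 : (((a.val : ℤ) - b.val : ℤ) : ZMod 5) = 0 :=
        (ZMod.intCast_zmod_eq_zero_iff_dvd _ 5).mpr hab
      push_cast at h0
      rw [ZMod.natCast_zmod_val, ZMod.natCast_zmod_val] at h0
      exact sub_eq_zero.mp h0
    exact Prod.ext (key _ _ d1) (key _ _ d2)
  have hfin : Finite {P : (h86_E A B).toAffine.Point // 5 • P = 0} :=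
    Nat.finite_of_card_ne_zero (by rw [hcard]; norm_num)
  have hle : Nat.card {P : (h86_E A B).toAffine.Point // 5 • P = 0}
      ≤ Nat.card (ZMod 5 × ZMod 5) := by
    rw [hcard, Nat.card_prod, Nat.card_zmod]
    norm_num
  have hbij := hinj.bijective_of_nat_card_le hle
  have hx' : (5 : ℕ) • x = 0 := by
    have e : (5 : ℕ) • x = (5 : ℤ) • x := by module
    rw [e]
    exact hx
  obtain ⟨ij, hij⟩ := hbij.2 ⟨x, hx'⟩
  exact ⟨ij.1.val, ij.2.val, (congrArg Subtype.val hij).symm⟩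

end Fermat.Agent.S52
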