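import Fermat.Agent.S52.Core.H42CSym
import Fermat.Agent.S52.Core.H42Span
import Fermat.Agent.S52.Core.H42Mat
import Fermat.Agent.S52.Core.DescOf

/-!
# S52, block CORE: `IfaceCMat` and `IfaceCDesc`, unconditional (helper42)

Assembly of the landed rows: C-GEN, C-SYM, C-SPAN, C-MAT (helper42) and C-DESC-OF (helper72).
-/

set_option autoImplicit false

namespace Fermat.Agent.S52

/-- **(C-MAT)**, unconditional. -/
theorem h42m_ifaceCMat : IfaceCMat := h42m_cMat h42sp_cSpan

/-- **(C-DESC)**, unconditional: every `σ ∈ G_ℚ` moves a base point by a Klein symmetry with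
torsion matrix and a `10`-th root of unity. -/
theorem h42d_ifaceCDesc : IfaceCDesc := h72d_descOf h42s_ifaceCSym h42m_ifaceCMat

end Fermat.Agent.S52
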