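import Fermat.Agent.S52.Core.Mat
import Fermat.Agent.S52.Core.H42Span

/-!
# S52, block CORE, row C-MAT, unconditional form

helper6.  `IfaceCMat` from `h6m_cMat_of_cSpan` and helper42's `h42sp_cSpan : IfaceCSpan`.
-/

set_option autoImplicit false

namespace Fermat.Agent.S52

/-- **(C-MAT)**, unconditional. -/
theorem h6m_cMat : IfaceCMat := h6m_cMat_of_cSpan h42sp_cSpan

end Fermat.Agent.S52
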