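import Mathlib

/-!
# S52, block CORE: two-generator `5`-torsion groups (generic algebra for C-ISO-OF)

helper72.  If `(P, Q)` is a basis of the `5`-torsion of an additive commutative group `G` and
`(P', Q')` one of `G'`, there is a unique additive equivalence of the `5`-torsion subgroups
sending `i • P + j • Q` to `i • P' + j • Q'`.
-/

set_option autoImplicit false

namespace Fermat.Agent.S52

/-- `(P, Q)` is a basis of the `5`-torsion of `G`. -/
structure h72i_IsBasis {G : Type*} [AddCommGroup G] (P Q : G) : Prop where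
  torsP : (5 : ℤ) • P = 0
  torsQ : (5 : ℤ) • Q = 0
  indep : ∀ i j : ℤ, i • P + j • Q = 0 → (5 : ℤ) ∣ i ∧ (5 : ℤ) ∣ j
  span : ∀ x : G, (5 : ℤ) • x = 0 → ∃ i j : ℤ, x = i • P + j • Q

section

variable {G G' : Type*} [AddCommGroup G] [AddCommGroup G']

theorem h72i_zsmul_congr {x : G} (hx : (5 : ℤ) • x = 0) {m n : ℤ} (h : (5 : ℤ) ∣ m - n) :
    m • x = n • x := by
  obtain ⟨c, hc⟩ := h
  have hm : m = n + c * 5 := by linarith
  rw [hm, add_zsmul, mul_zsmul, hx, smul_zero, add_zero]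

theorem h72i_comb_congr {P Q : G} (hP : (5 : ℤ) • P = 0) (hQ : (5 : ℤ) • Q = 0)
    {i j i' j' : ℤ} (hi : (5 : ℤ) ∣ i - i') (hj : (5 : ℤ) ∣ j - j') :
    i • P + j • Q = i' • P + j' • Q := by
  rw [h72i_zsmul_congr hP hi, h72i_zsmul_congr hQ hj]

theorem h72i_coeff_unique {P Q : G} (h : h72i_IsBasis P Q) {i j i' j' : ℤ}
    (e : i • P + j • Q = i' • P + j' • Q) : (5 : ℤ) ∣ i - i' ∧ (5 : ℤ) ∣ j - j' := by
  apply h.indep
  have : (i - i') • P + (j - j') • Q = (i • P + j • Q) - (i' • P + j' • Q) := by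
    rw [sub_zsmul, sub_zsmul]
    abel
  rw [this, e, sub_self]

theorem h72i_comb_tors {P Q : G} (hP : (5 : ℤ) • P = 0) (hQ : (5 : ℤ) • Q = 0) (i j : ℤ) :
    (5 : ℤ) • (i • P + j • Q) = 0 := by
  have e1 : (5 : ℤ) • i • P = i • (5 : ℤ) • P := by
    rw [← mul_zsmul, ← mul_zsmul, mul_comm]
  have e2 : (5 : ℤ) • j • Q = j • (5 : ℤ) • Q := by
    rw [← mul_zsmul, ← mul_zsmul, mul_comm]
  rw [zsmul_add, e1, e2, hP, hQ, smul_zero, smul_zero, add_zero]

/-- The comparison map of two bases, on the underlying sets. -/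
noncomputable def h72i_fun {P Q : G} (h : h72i_IsBasis P Q) (P' Q' : G')
    (x : Submodule.torsionBy ℤ G ((5 : ℕ) : ℤ)) : G' :=
  have hx : (5 : ℤ) • (x : G) = 0 := by
    have := (Submodule.mem_torsionBy_iff _ _).1 x.2
    simpa using this
  (Classical.choose (h.span x hx)) • P'
    + (Classical.choose (Classical.choose_spec (h.span x hx))) • Q'

theorem h72i_fun_eq {P Q : G} (h : h72i_IsBasis P Q) {P' Q' : G'}
    (hP' : (5 : ℤ) • P' = 0) (hQ' : (5 : ℤ) • Q' = 0)
    (x : Submodule.torsionBy ℤ G ((5 : ℕ) : ℤ)) (i j : ℤ) (hx : (x : G) = i • P + j • Q) :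
    h72i_fun h P' Q' x = i • P' + j • Q' := by
  have hx5 : (5 : ℤ) • (x : G) = 0 := by
    have := (Submodule.mem_torsionBy_iff _ _).1 x.2
    simpa using this
  have hs := Classical.choose_spec (Classical.choose_spec (h.span x hx5))
  obtain ⟨h1, h2⟩ := h72i_coeff_unique h (hx.symm.trans hs)
  exact (h72i_comb_congr hP' hQ' h1 h2).symm

theorem h72i_fun_mem {P Q : G} (h : h72i_IsBasis P Q) {P' Q' : G'}
    (hP' : (5 : ℤ) • P' = 0) (hQ' : (5 : ℤ) • Q' = 0)
    (x : Submodule.torsionBy ℤ G ((5 : ℕ) : ℤ)) :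
    h72i_fun h P' Q' x ∈ Submodule.torsionBy ℤ G' ((5 : ℕ) : ℤ) := by
  rw [Submodule.mem_torsionBy_iff]
  unfold h72i_fun
  have := h72i_comb_tors hP' hQ'
    (Classical.choose (h.span x (by
      have := (Submodule.mem_torsionBy_iff _ _).1 x.2
      simpa using this)))
    (Classical.choose (Classical.choose_spec (h.span x (by
      have := (Submodule.mem_torsionBy_iff _ _).1 x.2
      simpa using this))))
  simpa using this

/-- The comparison equivalence of two bases of the `5`-torsion. -/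
theorem h72i_exists_equiv {P Q : G} {P' Q' : G'} (h : h72i_IsBasis P Q)
    (h' : h72i_IsBasis P' Q') :
    ∃ e : Submodule.torsionBy ℤ G ((5 : ℕ) : ℤ) ≃+ Submodule.torsionBy ℤ G' ((5 : ℕ) : ℤ),
      ∀ (x : Submodule.torsionBy ℤ G ((5 : ℕ) : ℤ)) (i j : ℤ), (x : G) = i • P + j • Q →
        ((e x : Submodule.torsionBy ℤ G' ((5 : ℕ) : ℤ)) : G') = i • P' + j • Q' := by
  have hx5 : ∀ x : Submodule.torsionBy ℤ G ((5 : ℕ) : ℤ), (5 : ℤ) • (x : G) = 0 := by
    intro x
    have := (Submodule.mem_torsionBy_iff _ _).1 x.2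
    simpa using this
  have hy5 : ∀ y : Submodule.torsionBy ℤ G' ((5 : ℕ) : ℤ), (5 : ℤ) • (y : G') = 0 := by
    intro y
    have := (Submodule.mem_torsionBy_iff _ _).1 y.2
    simpa using this
  let f : Submodule.torsionBy ℤ G ((5 : ℕ) : ℤ) → Submodule.torsionBy ℤ G' ((5 : ℕ) : ℤ) :=
    fun x => ⟨h72i_fun h P' Q' x, h72i_fun_mem h h'.torsP h'.torsQ x⟩
  let g : Submodule.torsionBy ℤ G' ((5 : ℕ) : ℤ) → Submodule.torsionBy ℤ G ((5 : ℕ) : ℤ) :=
    fun y => ⟨h72i_fun h' P Q y, h72i_fun_mem h' h.torsP h.torsQ y⟩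
  have hf : ∀ (x : Submodule.torsionBy ℤ G ((5 : ℕ) : ℤ)) (i j : ℤ),
      (x : G) = i • P + j • Q → ((f x : Submodule.torsionBy ℤ G' ((5 : ℕ) : ℤ)) : G')
        = i • P' + j • Q' :=
    fun x i j hx => h72i_fun_eq h h'.torsP h'.torsQ x i j hx
  have hg : ∀ (y : Submodule.torsionBy ℤ G' ((5 : ℕ) : ℤ)) (i j : ℤ),
      (y : G') = i • P' + j • Q' → ((g y : Submodule.torsionBy ℤ G ((5 : ℕ) : ℤ)) : G)
        = i • P + j • Q :=
    fun y i j hy => h72i_fun_eq h' h.torsP h.torsQ y i j hy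
  refine ⟨{ toFun := f
            invFun := g
            left_inv := ?_
            right_inv := ?_
            map_add' := ?_ }, fun x i j hx => hf x i j hx⟩
  · intro x
    obtain ⟨i, j, hx⟩ := h.span x (hx5 x)
    apply Subtype.ext
    rw [hg (f x) i j (hf x i j hx), hx]
  · intro y
    obtain ⟨i, j, hy⟩ := h'.span y (hy5 y)
    apply Subtype.ext
    rw [hf (g y) i j (hg y i j hy), hy]
  · intro x y
    obtain ⟨i, j, hx⟩ := h.span x (hx5 x)
    obtain ⟨i', j', hy⟩ := h.span y (hx5 y)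
    have hxy : ((x + y : Submodule.torsionBy ℤ G ((5 : ℕ) : ℤ)) : G)
        = (i + i') • P + (j + j') • Q := by
      rw [Submodule.coe_add, hx, hy, add_zsmul, add_zsmul]
      abel
    apply Subtype.ext
    rw [Submodule.coe_add, hf _ _ _ hxy, hf x i j hx, hf y i' j' hy, add_zsmul, add_zsmul]
    abel

end

end Fermat.Agent.S52
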