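import Fermat.Agent.S52.Core.DescOf
import Fermat.Agent.S52.Core.SepOf
import Fermat.Agent.S52.Core.H72Basis
import Fermat.Agent.S52.Klein.Points

/-!
# S52, block CORE, row C-ISO-OF: `IfaceKlData → IfaceCDesc → IfaceCSpan → IfaceCoreIsoZ`

helper72 (second seat).  Two points `w₀`, `w_s` (`s` rational) of a covariant line carry the
bases `(P10, P01)(w₀)` and `(P10, P01)(w_s)` of the `5`-torsion of their curves; the comparison
equivalence of these bases is Galois-equivariant, because every `σ ∈ G_ℚ` moves `w₀` and `w_s`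
by the same Klein symmetry `φ` and the same root of unity `lam`, so that `σ` has the same matrix
on both bases.
-/

set_option autoImplicit false

namespace Fermat.Agent.S52

open WeierstrassCurve WeierstrassCurve.Affine

local notation "Qbar" => AlgebraicClosure ℚ

/-- A scalar `lam` with `lam ^ 10 = 1` acts on the universal points by a sign. -/
theorem h72i_scal (D : h86_KlData) (lam : Qbar) (hlam : lam ^ 10 = 1) :
    ∃ ε : ℤ, ∀ (ζ : Qbar) (A B : ℤ) (u v : Qbar), h86_Z5 ζ → h86_Base A B u v →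
      D.P10 ζ A B (lam * u) (lam * v) = ε • D.P10 ζ A B u v ∧
      D.P01 A B (lam * u) (lam * v) = ε • D.P01 A B u v := by
  have h : (lam ^ 5 - 1) * (lam ^ 5 + 1) = 0 := by linear_combination hlam
  rcases mul_eq_zero.mp h with h1 | h1
  · refine ⟨1, fun ζ A B u v hζ hb => ?_⟩
    have h5 : lam ^ 5 = 1 := sub_eq_zero.mp h1
    rw [one_zsmul, one_zsmul]
    exact ⟨D.lawScal10 ζ A B u v lam hζ hb h5, D.lawScal01 A B u v lam hb h5⟩
  · refine ⟨-1, fun ζ A B u v hζ hb => ?_⟩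
    have h5 : (-lam) ^ 5 = 1 := by linear_combination -h1
    have hbn : h86_Base A B (-u) (-v) := by
      have := h86_Base_smul hb (lam := -1) (by norm_num)
      simpa using this
    have e1 : lam * u = (-lam) * (-u) := by ring
    have e2 : lam * v = (-lam) * (-v) := by ring
    rw [e1, e2, neg_one_zsmul, neg_one_zsmul]
    exact ⟨by rw [D.lawScal10 ζ A B (-u) (-v) (-lam) hζ hbn h5, D.lawNeg10 ζ A B u v hζ hb],
      by rw [D.lawScal01 A B (-u) (-v) (-lam) hbn h5, D.lawNeg01 A B u v hb]⟩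

/-- The matrix of `σ` on the universal basis only depends on the Klein symmetry with torsion
matrix and the root of unity by which `σ` moves the base point. -/
theorem h72i_matrix (D : h86_KlData) (ζ : Qbar) (hζ : h86_Z5 ζ) (σ : Qbar ≃ₐ[ℚ] Qbar)
    (a b c d lam : Qbar) (p q r s : ℤ) (hS : h86_SymM D ζ a b c d p q r s)
    (hlam : lam ^ 10 = 1) :
    ∃ m11 m12 m21 m22 : ℤ, ∀ (A B : ℤ) (u v : Qbar), h86_Base A B u v →
      σ u = lam * (a * u + b * v) → σ v = lam * (c * u + d * v) →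
      σ • D.P10 ζ A B u v = m11 • D.P10 ζ A B u v + m12 • D.P01 A B u v ∧
      σ • D.P01 A B u v = m21 • D.P10 ζ A B u v + m22 • D.P01 A B u v := by
  obtain ⟨k, hk0, hk5, hσζ⟩ := h72d_exists_k ζ hζ σ
  obtain ⟨ε, hε⟩ := h72i_scal D lam hlam
  obtain ⟨hK, hlaw⟩ := hS
  refine ⟨ε * (k * p), ε * (k * q), ε * r, ε * s, fun A B u v hb hu hv => ?_⟩
  have hbφ : h86_Base A B (a * u + b * v) (c * u + d * v) := h86_Base_sym hb hK
  obtain ⟨hφ10, hφ01⟩ := hlaw A B u v hb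
  have hζk : h86_Z5 (ζ ^ k) := h72d_z5_pow ζ hζ k hk0 hk5
  constructor
  · rw [D.gal10 σ ζ A B u v hζ hb, hσζ, hu, hv, (hε (ζ ^ k) A B _ _ hζk hbφ).1,
      h72d_twist D ζ hζ A B _ _ hbφ k hk0 hk5, hφ10]
    simp only [zsmul_add, smul_smul]
  · rw [D.gal01 σ A B u v hb, hu, hv, (hε ζ A B _ _ hζ hbφ).2, hφ01]
    simp only [zsmul_add, smul_smul]

/-- `σ` moves every rational point of the covariant line like the base point. -/
theorem h72i_line (σ : Qbar ≃ₐ[ℚ] Qbar) (u₀ v₀ a b c d lam : Qbar)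
    (hK : IsKleinSym a b c d) (hlam : lam ^ 10 = 1)
    (hu : σ u₀ = lam * (a * u₀ + b * v₀)) (hv : σ v₀ = lam * (c * u₀ + d * v₀)) (s : ℚ) :
    σ (u₀ + s * h42rr_fv u₀ v₀)
        = lam * (a * (u₀ + s * h42rr_fv u₀ v₀) + b * (v₀ + s * -h42rr_fu u₀ v₀)) ∧
      σ (v₀ + s * -h42rr_fu u₀ v₀)
        = lam * (c * (u₀ + s * h42rr_fv u₀ v₀) + d * (v₀ + s * -h42rr_fu u₀ v₀)) := by
  have h11 : lam ^ 11 = lam := by rw [pow_succ, hlam, one_mul]
  have hs : σ (s : Qbar) = s := map_ratCast σ s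
  have h1 : σ (h42rr_fv u₀ v₀) = lam * (a * h42rr_fv u₀ v₀ + b * -h42rr_fu u₀ v₀) := by
    rw [h42rr_fv_map σ u₀ v₀, hu, hv, h42rr_fv_smul, (hK u₀ v₀).2.2.2.1, h11]
  have h2 : σ (-h42rr_fu u₀ v₀) = lam * (c * h42rr_fv u₀ v₀ + d * -h42rr_fu u₀ v₀) := by
    rw [map_neg, h42rr_fu_map σ u₀ v₀, hu, hv, h42rr_fu_smul, ← (hK u₀ v₀).2.2.2.2, h11]
    ring
  constructor
  · rw [map_add, map_mul, hs, h1, hu]
    ring
  · rw [map_add, map_mul, hs, h2, hv]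
    ring

/-- **(C-ISO-OF)** -/
theorem h72i_cIsoOf : IfaceCIsoOf := by
  rintro ⟨D⟩ hDesc hSpan A B hAB u₀ v₀ hH hT s A' B' hAB' hH' hT'
  obtain ⟨ζ, hζ⟩ := h49_exists_Z5
  have hb : h86_Base A B u₀ v₀ := ⟨hAB, hH, hT⟩
  have hb' : h86_Base A' B' (u₀ + s * h42rr_fv u₀ v₀) (v₀ + s * -h42rr_fu u₀ v₀) :=
    ⟨hAB', hH', hT'⟩
  have hB : h72i_IsBasis (D.P10 ζ A B u₀ v₀) (D.P01 A B u₀ v₀) :=
    ⟨D.tors10 ζ A B u₀ v₀ hζ hb, D.tors01 A B u₀ v₀ hb, D.indep ζ A B u₀ v₀ hζ hb,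
      hSpan D ζ hζ A B u₀ v₀ hb⟩
  have hB' : h72i_IsBasis
      (D.P10 ζ A' B' (u₀ + s * h42rr_fv u₀ v₀) (v₀ + s * -h42rr_fu u₀ v₀))
      (D.P01 A' B' (u₀ + s * h42rr_fv u₀ v₀) (v₀ + s * -h42rr_fu u₀ v₀)) :=
    ⟨D.tors10 ζ A' B' _ _ hζ hb', D.tors01 A' B' _ _ hb', D.indep ζ A' B' _ _ hζ hb',
      hSpan D ζ hζ A' B' _ _ hb'⟩
  obtain ⟨e, he⟩ := h72i_exists_equiv hB hB'
  refine ⟨e, fun σ x => ?_⟩
  obtain ⟨a, b, c, d, lam, p, q, r, s', hS, hlam, hu, hv⟩ := hDesc D ζ hζ A B u₀ v₀ hb σ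
  obtain ⟨m11, m12, m21, m22, hM⟩ := h72i_matrix D ζ hζ σ a b c d lam p q r s' hS hlam
  obtain ⟨hl1, hl2⟩ := h72i_line σ u₀ v₀ a b c d lam hS.1 hlam hu hv s
  obtain ⟨g10, g01⟩ := hM A B u₀ v₀ hb hu hv
  obtain ⟨g10', g01'⟩ := hM A' B' _ _ hb' hl1 hl2
  have hx5 : (5 : ℤ) • (x : h86_Pt A B) = 0 := by
    have := (Submodule.mem_torsionBy_iff _ _).1 x.2
    simpa using this
  have hadd : ∀ P Q : h86_Pt A B, σ • (P + Q) = σ • P + σ • Q := fun P Q => smul_add σ P Q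
  have hadd' : ∀ P Q : h86_Pt A' B', σ • (P + Q) = σ • P + σ • Q := fun P Q => smul_add σ P Q
  obtain ⟨i, j, hx⟩ := hB.span x hx5
  have hσx : ((σ • x : h86_Tors (h86_shortZ A B) 5) : h86_Pt A B)
      = (i * m11 + j * m21) • D.P10 ζ A B u₀ v₀ + (i * m12 + j * m22) • D.P01 A B u₀ v₀ := by
    show σ • (x : h86_Pt A B) = _
    rw [hx, hadd, Point.algEquiv_smul_zsmul, Point.algEquiv_smul_zsmul, g10, g01]
    simp only [zsmul_add, smul_smul, add_zsmul]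
    abel
  apply Subtype.ext
  rw [he (σ • x) _ _ hσx]
  show _ = σ • ((e x : h86_Tors (h86_shortZ A' B') 5) : h86_Pt A' B')
  rw [he x i j hx, hadd', Point.algEquiv_smul_zsmul, Point.algEquiv_smul_zsmul, g10', g01']
  simp only [zsmul_add, smul_smul, add_zsmul]
  abel

end Fermat.Agent.S52
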