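import Fermat.Agent.S52.Core.Defs
import Fermat.Agent.EFrob.DetCyc

/-!
# S52, block CORE, row C-MAT: `IfaceCSpan → IfaceCMat`

Owner: helper6.  For `σ ∈ G_ℚ` with `σ ζ = ζ ^ k` the points `σ • P10`, `σ • P01` are again
`5`-torsion, hence integer combinations `(p, q)`, `(r, s)` of `(P10, P01)` by `IfaceCSpan`.
`(P10, P01)` is a `ZMod 5`-basis of the `5`-torsion module (`D.indep` + `IfaceCSpan`), the
matrix of `σ` in this basis has columns `(p, q)`, `(r, s)`, so its determinant is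
`p s - q r mod 5`; on the other hand the determinant is `k`
(`EFrob.galoisDet_eq_of_zeta`, the Weil pairing free form of `det ρ̄ = χ_cyc`).
-/

set_option autoImplicit false

namespace Fermat.Agent.S52

open WeierstrassCurve WeierstrassCurve.Affine WeierstrassCurve.Affine.Point

/-- Linear algebra: the determinant of an endomorphism of a `ZMod 5`-module with a two element
"integer basis" `(P, Q)`. -/
theorem h6m_det_of_pair {M : Type*} [AddCommGroup M] [Module (ZMod 5) M]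
    (P Q : M) (hind : ∀ i j : ℤ, i • P + j • Q = 0 → (5 : ℤ) ∣ i ∧ (5 : ℤ) ∣ j)
    (hspan : ∀ x : M, ∃ i j : ℤ, x = i • P + j • Q)
    (f : M →ₗ[ZMod 5] M) (p q r s : ℤ)
    (hP : f P = p • P + q • Q) (hQ : f Q = r • P + s • Q) :
    LinearMap.det f = ((p * s - q * r : ℤ) : ZMod 5) := by
  have hli : LinearIndependent (ZMod 5) ![P, Q] := by
    rw [LinearIndependent.pair_iff]
    intro a b hab
    obtain ⟨i, rfl⟩ := ZMod.intCast_surjective a
    obtain ⟨j, rfl⟩ := ZMod.intCast_surjective b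
    rw [Int.cast_smul_eq_zsmul, Int.cast_smul_eq_zsmul] at hab
    obtain ⟨h1, h2⟩ := hind i j hab
    exact ⟨(ZMod.intCast_zmod_eq_zero_iff_dvd i 5).mpr h1,
      (ZMod.intCast_zmod_eq_zero_iff_dvd j 5).mpr h2⟩
  have hsp : ⊤ ≤ Submodule.span (ZMod 5) (Set.range ![P, Q]) := by
    intro x _
    obtain ⟨i, j, rfl⟩ := hspan x
    refine Submodule.add_mem _ ?_ ?_
    · rw [← Int.cast_smul_eq_zsmul (ZMod 5)]
      exact Submodule.smul_mem _ _ (Submodule.subset_span ⟨0, rfl⟩)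
    · rw [← Int.cast_smul_eq_zsmul (ZMod 5)]
      exact Submodule.smul_mem _ _ (Submodule.subset_span ⟨1, rfl⟩)
  let b : Module.Basis (Fin 2) (ZMod 5) M := Module.Basis.mk hli hsp
  have hb0 : b 0 = P := by simp [b]
  have hb1 : b 1 = Q := by simp [b]
  let N : Matrix (Fin 2) (Fin 2) (ZMod 5) := !![(p : ZMod 5), r; q, s]
  have hf : f = Matrix.toLin b b N := by
    apply b.ext
    intro i
    rw [Matrix.toLin_self]
    fin_cases i
    · simp [Fin.sum_univ_two, hb0, hb1, hP, N, Int.cast_smul_eq_zsmul]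
    · simp [Fin.sum_univ_two, hb0, hb1, hQ, N, Int.cast_smul_eq_zsmul]
  rw [hf, LinearMap.det_toLin, Matrix.det_fin_two_of]
  push_cast
  ring

theorem h6m_pow_five (ζ : AlgebraicClosure ℚ) (hζ : h86_Z5 ζ) : ζ ^ 5 = 1 := by
  unfold h86_Z5 at hζ
  linear_combination (ζ - 1) * hζ

theorem h6m_ne_one (ζ : AlgebraicClosure ℚ) (hζ : h86_Z5 ζ) : ζ ≠ 1 := by
  intro h
  unfold h86_Z5 at hζ
  rw [h] at hζ
  norm_num at hζ

theorem h6m_primitive (ζ : AlgebraicClosure ℚ) (hζ : h86_Z5 ζ) : IsPrimitiveRoot ζ 5 := by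
  have : Fact (Nat.Prime 5) := ⟨by norm_num⟩
  have h := orderOf_eq_prime (p := 5) (h6m_pow_five ζ hζ) (h6m_ne_one ζ hζ)
  have h2 := IsPrimitiveRoot.orderOf ζ
  rwa [h] at h2

theorem h6m_shortZ_Δ_ne_zero {A B : ℤ} (h : A ^ 3 ≠ B ^ 2) : (h86_shortZ A B).Δ ≠ 0 := by
  have e : (h86_shortZ A B).Δ = 1259712 * (A ^ 3 - B ^ 2) := by
    simp only [h86_shortZ, WeierstrassCurve.Δ, WeierstrassCurve.b₂, WeierstrassCurve.b₄,
      WeierstrassCurve.b₆, WeierstrassCurve.b₈]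
    ring
  rw [e]
  exact mul_ne_zero (by norm_num) (sub_ne_zero.mpr h)

/-- **(C-MAT)** `IfaceCSpan → IfaceCMat`. -/
theorem h6m_cMat_of_cSpan (hspan : IfaceCSpan) : IfaceCMat := by
  intro D ζ hζ A B u v hb σ k hk
  have tP : (5 : ℤ) • D.P10 ζ A B u v = 0 := D.tors10 ζ A B u v hζ hb
  have tQ : (5 : ℤ) • D.P01 A B u v = 0 := D.tors01 A B u v hb
  have tσP : (5 : ℤ) • (σ • D.P10 ζ A B u v) = 0 := by
    rw [← Point.algEquiv_smul_zsmul, tP]
    exact smul_zero (A := h86_Pt A B) σ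
  have tσQ : (5 : ℤ) • (σ • D.P01 A B u v) = 0 := by
    rw [← Point.algEquiv_smul_zsmul, tQ]
    exact smul_zero (A := h86_Pt A B) σ
  obtain ⟨p, q, hpq⟩ := hspan D ζ hζ A B u v hb _ tσP
  obtain ⟨r, s, hrs⟩ := hspan D ζ hζ A B u v hb _ tσQ
  refine ⟨p, q, r, s, hpq, hrs, ?_⟩
  have hdet := Fermat.Agent.EFrob.galoisDet_eq_of_zeta (h86_shortZ A B)
    (h6m_shortZ_Δ_ne_zero hb.1) (p := 5) (by norm_num) (h6m_primitive ζ hζ) σ k hk
  have hmem : ∀ x : h86_Pt A B, (5 : ℤ) • x = 0 →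
      x ∈ Submodule.torsionBy ℤ (h86_Pt A B) ((5 : ℕ) : ℤ) := by
    intro x hx
    rw [Submodule.mem_torsionBy_iff]
    exact_mod_cast hx
  have hdet' := h6m_det_of_pair
    (M := Submodule.torsionBy ℤ (h86_Pt A B) ((5 : ℕ) : ℤ))
    ⟨D.P10 ζ A B u v, hmem _ tP⟩ ⟨D.P01 A B u v, hmem _ tQ⟩ ?_ ?_
    (galoisRepModuleEnd (K := AlgebraicClosure ℚ) ℚ
      ((h86_shortZ A B).map (Int.castRingHom ℚ)).toAffine 5 σ) p q r s ?_ ?_
  · rw [hdet] at hdet'
    have h0 : (((p * s - q * r - k : ℤ)) : ZMod 5) = 0 := by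
      push_cast
      push_cast at hdet'
      rw [← hdet']
      ring
    exact (ZMod.intCast_zmod_eq_zero_iff_dvd _ 5).mp h0
  · intro i j hij
    apply D.indep ζ A B u v hζ hb i j
    exact congrArg Subtype.val hij
  · intro x
    have hx : (5 : ℤ) • x.1 = 0 := by
      have := x.2
      rw [Submodule.mem_torsionBy_iff] at this
      exact_mod_cast this
    obtain ⟨i, j, hij⟩ := hspan D ζ hζ A B u v hb x.1 hx
    exact ⟨i, j, Subtype.ext hij⟩
  · apply Subtype.ext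
    exact hpq
  · apply Subtype.ext
    exact hrs

end Fermat.Agent.S52
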