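import Fermat.Agent.S52.Core.Defs

/-!
# S52, block CORE, row C-SYM: `IfaceCGen → IfaceCSym`

Owner: helper42.  Every integer matrix of determinant `≡ 1 mod 5` is the torsion matrix of a
Klein symmetry:

* Klein symmetries are closed under composition (`h42s_klein_comp`), contain the identity and
  `t = diag(ζ³, ζ²)` (`h42s_klein_t`);
* Klein symmetries with torsion matrix (`h86_SymM`) are closed under composition, with
  multiplication of the matrices (`h42s_symM_comp`);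
* `t` has torsion matrix `(1 0; 1 1)`, Klein's `S` has torsion matrix `(0 -1; 1 0)`;
* the torsion matrices mod 5 form a submonoid of `M₂(𝔽₅)` (`h42s_N`), which contains all
  matrices of determinant one by `IfaceCGen`;
* the torsion matrix only matters mod 5 (`h42s_symM_congr`).
-/

set_option autoImplicit false

namespace Fermat.Agent.S52

open WeierstrassCurve WeierstrassCurve.Affine

/-! ## Klein symmetries -/

section Klein

variable {K : Type*} [CommRing K]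

theorem h42s_pow_five (ζ : K) (h : ζ ^ 4 + ζ ^ 3 + ζ ^ 2 + ζ + 1 = 0) : ζ ^ 5 = 1 := by
  linear_combination (ζ - 1) * h

/-- The forms `f, H, T, f_u, f_v` only depend on `u⁵, v⁵, uv` (up to the obvious factor). -/
theorem h42s_f_eq (a b : K) :
    h42rr_f a b = (a * b) * ((a ^ 5) ^ 2 + 11 * a ^ 5 * b ^ 5 - (b ^ 5) ^ 2) := by
  unfold h42rr_f; ring

theorem h42s_H_eq (a b : K) :
    h42rr_H a b = -((a ^ 5) ^ 4 + (b ^ 5) ^ 4)
      + 228 * ((a ^ 5) ^ 3 * b ^ 5 - a ^ 5 * (b ^ 5) ^ 3) - 494 * (a ^ 5) ^ 2 * (b ^ 5) ^ 2 := by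
  unfold h42rr_H; ring

theorem h42s_T_eq (a b : K) :
    h42rr_T a b = (a ^ 5) ^ 6 + (b ^ 5) ^ 6
      + 522 * ((a ^ 5) ^ 5 * b ^ 5 - a ^ 5 * (b ^ 5) ^ 5)
      - 10005 * ((a ^ 5) ^ 4 * (b ^ 5) ^ 2 + (a ^ 5) ^ 2 * (b ^ 5) ^ 4) := by
  unfold h42rr_T; ring

theorem h42s_fv_eq (a b : K) :
    h42rr_fv a b = a * ((a ^ 5) ^ 2 + 66 * a ^ 5 * b ^ 5 - 11 * (b ^ 5) ^ 2) := by
  unfold h42rr_fv; ring

theorem h42s_fu_eq (a b : K) :
    h42rr_fu a b = b * (11 * (a ^ 5) ^ 2 + 66 * a ^ 5 * b ^ 5 - (b ^ 5) ^ 2) := by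
  unfold h42rr_fu; ring

/-- The identity is a Klein symmetry. -/
theorem h42s_klein_one : IsKleinSym (1 : K) 0 0 1 := by
  intro u v
  have e1 : (1 : K) * u + 0 * v = u := by ring
  have e2 : (0 : K) * u + 1 * v = v := by ring
  rw [e1, e2]
  refine ⟨rfl, rfl, rfl, ?_, ?_⟩ <;> ring

/-- Klein symmetries are closed under composition. -/
theorem h42s_klein_comp {a b c d a' b' c' d' : K} (h : IsKleinSym a b c d)
    (h' : IsKleinSym a' b' c' d') :
    IsKleinSym (a * a' + b * c') (a * b' + b * d') (c * a' + d * c') (c * b' + d * d') := by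
  intro u v
  have e1 : (a * a' + b * c') * u + (a * b' + b * d') * v
      = a * (a' * u + b' * v) + b * (c' * u + d' * v) := by ring
  have e2 : (c * a' + d * c') * u + (c * b' + d * d') * v
      = c * (a' * u + b' * v) + d * (c' * u + d' * v) := by ring
  rw [e1, e2]
  obtain ⟨f1, H1, T1, v1, u1⟩ := h (a' * u + b' * v) (c' * u + d' * v)
  obtain ⟨f2, H2, T2, v2, u2⟩ := h' u v
  refine ⟨f1.trans f2, H1.trans H2, T1.trans T2, ?_, ?_⟩
  · rw [v1, v2, u2]; ring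
  · rw [u1, v2, u2]; ring

/-- `t = diag(ζ³, ζ²)` is a Klein symmetry. -/
theorem h42s_klein_t (ζ : K) (h : ζ ^ 5 = 1) : IsKleinSym (ζ ^ 3) 0 0 (ζ ^ 2) := by
  intro u v
  have e1 : ζ ^ 3 * u + 0 * v = ζ ^ 3 * u := by ring
  have e2 : 0 * u + ζ ^ 2 * v = ζ ^ 2 * v := by ring
  rw [e1, e2]
  have hx : (ζ ^ 3 * u) ^ 5 = u ^ 5 := by
    have : (ζ ^ 3 * u) ^ 5 = (ζ ^ 5) ^ 3 * u ^ 5 := by ring
    rw [this, h, one_pow, one_mul]
  have hy : (ζ ^ 2 * v) ^ 5 = v ^ 5 := by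
    have : (ζ ^ 2 * v) ^ 5 = (ζ ^ 5) ^ 2 * v ^ 5 := by ring
    rw [this, h, one_pow, one_mul]
  have hxy : ζ ^ 3 * u * (ζ ^ 2 * v) = u * v := by
    have : ζ ^ 3 * u * (ζ ^ 2 * v) = ζ ^ 5 * (u * v) := by ring
    rw [this, h, one_mul]
  refine ⟨?_, ?_, ?_, ?_, ?_⟩
  · rw [h42s_f_eq, h42s_f_eq u v, hx, hy, hxy]
  · rw [h42s_H_eq, h42s_H_eq u v, hx, hy]
  · rw [h42s_T_eq, h42s_T_eq u v, hx, hy]
  · rw [h42s_fv_eq, h42s_fv_eq u v, hx, hy]; ring
  · rw [h42s_fu_eq, h42s_fu_eq u v, hx, hy]; ring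

end Klein

/-! ## Klein symmetries with torsion matrix -/

section SymM

variable (D : h86_KlData) (ζ : AlgebraicClosure ℚ)

/-- A Klein symmetry maps base points to base points. -/
theorem h42s_base {a b c d : AlgebraicClosure ℚ} (h : IsKleinSym a b c d) {A B : ℤ}
    {u v : AlgebraicClosure ℚ} (hb : h86_Base A B u v) :
    h86_Base A B (a * u + b * v) (c * u + d * v) := by
  obtain ⟨-, hH, hT, -, -⟩ := h u v
  exact ⟨hb.1, hH.trans hb.2.1, hT.trans hb.2.2⟩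

/-- The identity has torsion matrix `1`. -/
theorem h42s_symM_one : h86_SymM D ζ 1 0 0 1 1 0 0 1 := by
  refine ⟨h42s_klein_one, fun A B u v _ => ?_⟩
  have e1 : (1 : AlgebraicClosure ℚ) * u + 0 * v = u := by ring
  have e2 : (0 : AlgebraicClosure ℚ) * u + 1 * v = v := by ring
  rw [e1, e2]
  refine ⟨?_, ?_⟩
  · module
  · module

/-- Composition of Klein symmetries with torsion matrices multiplies the matrices. -/
theorem h42s_symM_comp {a b c d a' b' c' d' : AlgebraicClosure ℚ} {p q r s p' q' r' s' : ℤ}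
    (h : h86_SymM D ζ a b c d p q r s) (h' : h86_SymM D ζ a' b' c' d' p' q' r' s') :
    h86_SymM D ζ (a * a' + b * c') (a * b' + b * d') (c * a' + d * c') (c * b' + d * d')
      (p * p' + q * r') (p * q' + q * s') (r * p' + s * r') (r * q' + s * s') := by
  refine ⟨h42s_klein_comp h.1 h'.1, fun A B u v hb => ?_⟩
  have e1 : (a * a' + b * c') * u + (a * b' + b * d') * v
      = a * (a' * u + b' * v) + b * (c' * u + d' * v) := by ring
  have e2 : (c * a' + d * c') * u + (c * b' + d * d') * v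
      = c * (a' * u + b' * v) + d * (c' * u + d' * v) := by ring
  rw [e1, e2]
  obtain ⟨k1, k2⟩ := h.2 A B _ _ (h42s_base h'.1 hb)
  obtain ⟨l1, l2⟩ := h'.2 A B u v hb
  rw [k1, k2, l1, l2]
  refine ⟨?_, ?_⟩
  · module
  · module

/-- `t = diag(ζ³, ζ²)` has torsion matrix `(1 0; 1 1)`. -/
theorem h42s_symM_t (hζ : h86_Z5 ζ) : h86_SymM D ζ (ζ ^ 3) 0 0 (ζ ^ 2) 1 0 1 1 := by
  refine ⟨h42s_klein_t ζ (h42s_pow_five ζ hζ), fun A B u v hb => ?_⟩
  have e1 : ζ ^ 3 * u + 0 * v = ζ ^ 3 * u := by ring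
  have e2 : 0 * u + ζ ^ 2 * v = ζ ^ 2 * v := by ring
  rw [e1, e2, D.lawT10 ζ A B u v hζ hb, D.lawT01 ζ A B u v hζ hb]
  refine ⟨?_, ?_⟩
  · module
  · module

/-- Klein's `S` has torsion matrix `(0 -1; 1 0)`. -/
theorem h42s_symM_S (hζ : h86_Z5 ζ) :
    h86_SymM D ζ (D.Sa ζ) (D.Sb ζ) (D.Sc ζ) (D.Sd ζ) 0 (-1) 1 0 := by
  refine ⟨D.symS ζ hζ, fun A B u v hb => ?_⟩
  rw [D.lawS10 ζ A B u v hζ hb, D.lawS01 ζ A B u v hζ hb]
  refine ⟨?_, ?_⟩
  · module
  · module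

/-- Multiples of a `5`-torsion point only depend on the multiplier mod 5. -/
theorem h42s_smul_congr {M : Type*} [AddCommGroup M] (x : M) (hx : (5 : ℤ) • x = 0) {p p' : ℤ}
    (h : (5 : ℤ) ∣ p - p') : p • x = p' • x := by
  obtain ⟨k, hk⟩ := h
  have : p = p' + k * 5 := by linarith
  rw [this, add_smul, mul_smul, hx, smul_zero, add_zero]

/-- The torsion matrix only matters mod 5. -/
theorem h42s_symM_congr (hζ : h86_Z5 ζ) {a b c d : AlgebraicClosure ℚ} {p q r s p' q' r' s' : ℤ}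
    (h : h86_SymM D ζ a b c d p' q' r' s') (hp : (5 : ℤ) ∣ p - p') (hq : (5 : ℤ) ∣ q - q')
    (hr : (5 : ℤ) ∣ r - r') (hs : (5 : ℤ) ∣ s - s') : h86_SymM D ζ a b c d p q r s := by
  refine ⟨h.1, fun A B u v hb => ?_⟩
  obtain ⟨k1, k2⟩ := h.2 A B u v hb
  have t10 := D.tors10 ζ A B u v hζ hb
  have t01 := D.tors01 A B u v hb
  rw [k1, k2, h42s_smul_congr _ t10 hp, h42s_smul_congr _ t01 hq, h42s_smul_congr _ t10 hr,
    h42s_smul_congr _ t01 hs]
  exact ⟨rfl, rfl⟩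

/-- The submonoid of `M₂(𝔽₅)` of the torsion matrices of Klein symmetries. -/
def h42s_N : Submonoid (Matrix (Fin 2) (Fin 2) (ZMod 5)) where
  carrier := {M | ∃ (a b c d : AlgebraicClosure ℚ) (p q r s : ℤ), h86_SymM D ζ a b c d p q r s ∧
    M = !![(p : ZMod 5), (q : ZMod 5); (r : ZMod 5), (s : ZMod 5)]}
  one_mem' := by
    refine ⟨1, 0, 0, 1, 1, 0, 0, 1, h42s_symM_one D ζ, ?_⟩
    rw [Matrix.one_fin_two]
    simp
  mul_mem' := by
    rintro _ _ ⟨a, b, c, d, p, q, r, s, h, rfl⟩ ⟨a', b', c', d', p', q', r', s', h', rfl⟩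
    refine ⟨_, _, _, _, _, _, _, _, h42s_symM_comp D ζ h h', ?_⟩
    rw [Matrix.mul_fin_two]
    simp

end SymM

/-- **(C-SYM)** `IfaceCGen → IfaceCSym`. -/
theorem h42s_cSym (hgen : IfaceCGen) : IfaceCSym := by
  intro D ζ hζ p q r s hdet
  have hL : !![(1 : ZMod 5), 0; 1, 1] ∈ h42s_N D ζ := by
    refine ⟨_, _, _, _, 1, 0, 1, 1, h42s_symM_t D ζ hζ, ?_⟩
    simp
  have hS : !![(0 : ZMod 5), -1; 1, 0] ∈ h42s_N D ζ := by
    refine ⟨_, _, _, _, 0, -1, 1, 0, h42s_symM_S D ζ hζ, ?_⟩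
    simp
  have hM : !![(p : ZMod 5), (q : ZMod 5); (r : ZMod 5), (s : ZMod 5)] ∈ h42s_N D ζ := by
    refine hgen (h42s_N D ζ) hL hS _ ?_
    rw [Matrix.det_fin_two_of]
    have h0 : ((p * s - q * r - 1 : ℤ) : ZMod 5) = 0 :=
      (ZMod.intCast_zmod_eq_zero_iff_dvd _ 5).mpr hdet
    push_cast at h0
    linear_combination h0
  obtain ⟨a, b, c, d, p', q', r', s', h, hmat⟩ := hM
  have hp : (p : ZMod 5) = p' := by
    have := congrFun (congrFun hmat 0) 0
    simpa using this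
  have hq : (q : ZMod 5) = q' := by
    have := congrFun (congrFun hmat 0) 1
    simpa using this
  have hr : (r : ZMod 5) = r' := by
    have := congrFun (congrFun hmat 1) 0
    simpa using this
  have hs : (s : ZMod 5) = s' := by
    have := congrFun (congrFun hmat 1) 1
    simpa using this
  have key : ∀ {x y : ℤ}, ((x : ZMod 5) = y) → (5 : ℤ) ∣ x - y := by
    intro x y hxy
    have h1 : ((x - y : ℤ) : ZMod 5) = 0 := by
      push_cast
      rw [hxy, sub_self]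
    exact (ZMod.intCast_zmod_eq_zero_iff_dvd _ 5).mp h1
  exact ⟨a, b, c, d, h42s_symM_congr D ζ hζ h (key hp) (key hq) (key hr) (key hs)⟩

/-- **(C-SYM)**, alias. -/
theorem ifaceCSym_of_cGen : IfaceCGen → IfaceCSym := h42s_cSym

end Fermat.Agent.S52
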